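/-
Program C (S55), package C3/C1: explicit 2-cocycles of finite cyclic groups (Mathlib only).
Designer: helper66.

For `σ : G` of order `n` and `a : A`, `cycFun A σ a` is the function
`(σ^i, σ^j) ↦ if n ≤ i + j then a else 0` (`0 ≤ i, j < n`); when `σ` generates `G` and `a` is
invariant it is a 2-cocycle, whose class `cycClass A σ a ∈ H²(G, A)` is the cup product of `a`
with the image of the character `σ ↦ 1/n` under `H¹(G, ℚ/ℤ) → H²(G, ℤ)`.
The leaf `Prop`s CY1–CY7 describe `H²` of a finite cyclic group through these classes.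
-/
import Mathlib

set_option autoImplicit false

noncomputable section

namespace Fermat.Agent.S55.H66

open CategoryTheory groupCohomology Rep

section Defs

variable {k G : Type} [CommRing k] [Group G] (A : Rep.{0, 0, 0} k G)

open Classical in
/-- The least `i` with `σ ^ i = g` (and `0` if there is none). -/
def cycIdx (σ g : G) : ℕ := if h : ∃ i : ℕ, σ ^ i = g then Nat.find h else 0

/-- The cyclic 2-cochain attached to `σ` and `a`. -/
def cycFun (σ : G) (a : A) : G × G → A :=
  fun x => if orderOf σ ≤ cycIdx σ x.1 + cycIdx σ x.2 then a else 0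

open Classical in
/-- The class of `cycFun A σ a` in `H²(G, A)` (zero if it is not a cocycle). -/
def cycClass (σ : G) (a : A) : H2 A :=
  if h : cycFun A σ a ∈ cocycles₂ A then (H2π A).hom ⟨cycFun A σ a, h⟩ else 0

end Defs

/-- CY1: `cycFun A σ a` is a 2-cocycle when `σ` generates `G` and `a` is invariant. -/
def LeafCycCocycle : Prop :=
  ∀ (k G : Type) [CommRing k] [Group G] [Finite G] (A : Rep.{0, 0, 0} k G) (σ : G),
    (∀ g : G, g ∈ Subgroup.zpowers σ) → ∀ a : A, (∀ g : G, A.ρ g a = a) →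
      cycFun A σ a ∈ cocycles₂ A

/-- CY2: every class of `H²` of a finite cyclic group is a cyclic class of an invariant. -/
def LeafCycSurj : Prop :=
  ∀ (k G : Type) [CommRing k] [Group G] [Finite G] (A : Rep.{0, 0, 0} k G) (σ : G),
    (∀ g : G, g ∈ Subgroup.zpowers σ) → ∀ x : H2 A,
      ∃ a : A, (∀ g : G, A.ρ g a = a) ∧ cycClass A σ a = x

/-- CY3: the cyclic class of an invariant `a` vanishes iff `a` is a norm. -/
def LeafCycZero : Prop :=
  ∀ (k G : Type) [CommRing k] [Group G] [Fintype G] (A : Rep.{0, 0, 0} k G) (σ : G),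
    (∀ g : G, g ∈ Subgroup.zpowers σ) → ∀ a : A, (∀ g : G, A.ρ g a = a) →
      (cycClass A σ a = 0 ↔ ∃ b : A, ∑ g : G, A.ρ g b = a)

/-- CY4: additivity of the cyclic class in the invariant. -/
def LeafCycAdd : Prop :=
  ∀ (k G : Type) [CommRing k] [Group G] [Finite G] (A : Rep.{0, 0, 0} k G) (σ : G),
    (∀ g : G, g ∈ Subgroup.zpowers σ) → ∀ a b : A, (∀ g : G, A.ρ g a = a) →
      (∀ g : G, A.ρ g b = b) → cycClass A σ (a + b) = cycClass A σ a + cycClass A σ b

/-- CY5: change of generator: `cycClass (σ^t) (t • a) = cycClass σ a` for `t` prime to the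
order (the character of `σ^t` is `t⁻¹` times the character of `σ`). -/
def LeafCycGen : Prop :=
  ∀ (k G : Type) [CommRing k] [Group G] [Finite G] (A : Rep.{0, 0, 0} k G) (σ : G),
    (∀ g : G, g ∈ Subgroup.zpowers σ) → ∀ t : ℕ, Nat.Coprime t (orderOf σ) →
      ∀ a : A, (∀ g : G, A.ρ g a = a) → cycClass A (σ ^ t) (t • a) = cycClass A σ a

/-- CY6: restriction.  If `φ : G' → G` is injective, `τ` generates `G'` and `φ τ = σ ^ d` with
`d * orderOf τ = orderOf σ`, then the pull-back of `cycClass σ a` is `cycClass τ (f a)`. -/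
def LeafCycRes : Prop :=
  ∀ (k G G' : Type) [CommRing k] [Group G] [Group G'] [Finite G] [Finite G']
    (A : Rep.{0, 0, 0} k G) (A' : Rep.{0, 0, 0} k G') (φ : G' →* G) (f : res φ A ⟶ A') (σ : G) (τ : G') (d : ℕ),
    (∀ g : G, g ∈ Subgroup.zpowers σ) → (∀ g : G', g ∈ Subgroup.zpowers τ) →
    Function.Injective φ → φ τ = σ ^ d → d * orderOf τ = orderOf σ →
      ∀ a : A, (∀ g : G, A.ρ g a = a) →
        (map φ f 2).hom (cycClass A σ a) = cycClass A' τ (f.hom a)

/-- CY7: inflation.  If `σ` generates `G`, `τ` generates `G'`, `φ τ = σ` (so `φ` is onto) and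
`orderOf τ = d * orderOf σ`, then the pull-back of `cycClass σ a` is `cycClass τ (d • f a)`. -/
def LeafCycInf : Prop :=
  ∀ (k G G' : Type) [CommRing k] [Group G] [Group G'] [Finite G] [Finite G']
    (A : Rep.{0, 0, 0} k G) (A' : Rep.{0, 0, 0} k G') (φ : G' →* G) (f : res φ A ⟶ A') (σ : G) (τ : G') (d : ℕ),
    (∀ g : G, g ∈ Subgroup.zpowers σ) → (∀ g : G', g ∈ Subgroup.zpowers τ) → φ τ = σ →
    orderOf τ = d * orderOf σ →
      ∀ a : A, (∀ g : G, A.ρ g a = a) →
        (map φ f 2).hom (cycClass A σ a) = cycClass A' τ (d • f.hom a)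

end Fermat.Agent.S55.H66
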