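/-
Program C (S55), package C3 (local fields in the `PadicAlgCl q` model): definitions.
Designer: helper66.  Mathlib only.

MODEL.  `q` a prime, `Ω = PadicAlgCl q`.  An *embedded local field* is a type `F : Type` with
`[Field F] [Algebra ℚ_[q] F] [Algebra F Ω] [IsScalarTower ℚ_[q] F Ω] [FiniteDimensional ℚ_[q] F]`.
Examples: `↥K` for `K : IntermediateField ℚ_[q] Ω` finite; and, recursively, `↥L` for
`L : IntermediateField F Ω` with `[FiniteDimensional F L]` (instances below).  A finite extension
of `F` is always given as `L : IntermediateField F Ω`; its Galois group is `L ≃ₐ[F] L`, its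
multiplicative group as a Galois module is Mathlib's `Rep.ofAlgebraAutOnUnits F L`.
The norm of `x : F` is `nrm q x = ‖algebraMap F Ω x‖` (spectral norm of `Ω`).
-/
import Mathlib

set_option autoImplicit false

noncomputable section

namespace Fermat.Agent.S55.H66

open IntermediateField

variable (q : ℕ) [Fact q.Prime]

section Tower

variable (F : Type) [Field F] [Algebra ℚ_[q] F] [Algebra F (PadicAlgCl q)]
  [IsScalarTower ℚ_[q] F (PadicAlgCl q)]
variable (L : IntermediateField F (PadicAlgCl q))

instance instTowerUp : IsScalarTower ℚ_[q] L (PadicAlgCl q) :=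
  IsScalarTower.of_algebraMap_eq (fun x => by
    rw [IsScalarTower.algebraMap_apply ℚ_[q] F (PadicAlgCl q),
      IsScalarTower.algebraMap_apply ℚ_[q] F L]
    rfl)

instance instFinUp [FiniteDimensional ℚ_[q] F] [FiniteDimensional F L] :
    FiniteDimensional ℚ_[q] L :=
  FiniteDimensional.trans ℚ_[q] F L

end Tower

section Basic

variable (F : Type) [Field F] [Algebra F (PadicAlgCl q)]

/-- The norm of an element of a subfield of `Ω`. -/
def nrm {F : Type} [Field F] [Algebra F (PadicAlgCl q)] (x : F) : ℝ :=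
  ‖algebraMap F (PadicAlgCl q) x‖

/-- The valuation ring of `F ⊆ Ω`. -/
def intRing : ValuationSubring F :=
  ((Valued.v : Valuation (PadicAlgCl q) NNReal).valuationSubring).comap
    (algebraMap F (PadicAlgCl q))

/-- The cardinality of the residue field of `F`. -/
def resCard : ℕ := Nat.card (IsLocalRing.ResidueField (intRing q F))

/-- The group of units of the valuation ring, as a subgroup of `Fˣ`. -/
def unitGroup : Subgroup Fˣ where
  carrier := {u | nrm q (u : F) = 1}
  one_mem' := by simp [nrm]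
  mul_mem' := by
    intro a b ha hb
    simp only [Set.mem_ofPred_eq, nrm, Units.val_mul, map_mul, norm_mul] at ha hb ⊢
    rw [ha, hb, one_mul]
  inv_mem' := by
    intro a ha
    simp only [Set.mem_ofPred_eq, nrm, Units.val_inv_eq_inv_val, map_inv₀, norm_inv] at ha ⊢
    rw [ha, inv_one]

/-- `L/F` is unramified: `L` has no new norms (`e = 1`). -/
def IsUnram (L : IntermediateField F (PadicAlgCl q)) : Prop :=
  ∀ x : L, ∃ y : F, nrm q x = nrm q y

/-- The unramified extension of degree `n` of `F` inside `Ω`. -/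
def unramExt (n : ℕ) : IntermediateField F (PadicAlgCl q) :=
  IntermediateField.adjoin F {ζ : PadicAlgCl q | ζ ^ (resCard q F ^ n - 1) = 1}

end Basic

section Coh

variable {q}
variable {F : Type} [Field F] [Algebra F (PadicAlgCl q)]
variable {L E : IntermediateField F (PadicAlgCl q)}

/-- Restriction `Gal(E/F) → Gal(L/F)` for `L ≤ E`, `L/F` normal. -/
def resHom [Normal F L] (h : L ≤ E) : (E ≃ₐ[F] E) →* (L ≃ₐ[F] L) :=
  letI : Algebra L E := (inclusion h).toRingHom.toAlgebra
  haveI : IsScalarTower F L E := IsScalarTower.of_algebraMap_eq (fun _ => rfl)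
  AlgEquiv.restrictNormalHom L

theorem resHom_apply [Normal F L] (h : L ≤ E) (σ : E ≃ₐ[F] E) (x : L) :
    ((resHom h σ x : L) : PadicAlgCl q) = (σ (inclusion h x) : E) := by
  letI : Algebra L E := (inclusion h).toRingHom.toAlgebra
  haveI : IsScalarTower F L E := IsScalarTower.of_algebraMap_eq (fun _ => rfl)
  have := AlgEquiv.restrictNormal_commutes σ L x
  exact congrArg (fun y : E => (y : PadicAlgCl q)) this

/-- The inclusion `Lˣ → Eˣ`, written additively. -/
def unitsIncl (h : L ≤ E) : Additive Lˣ →ₗ[ℤ] Additive Eˣ :=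
  (MonoidHom.toAdditive (Units.map ((inclusion h : L →ₐ[F] E) : L →* E))).toIntLinearMap

/-- The coefficient map of inflation. -/
def inflRep [Normal F L] (h : L ≤ E) :
    Rep.res (resHom h) (Rep.ofAlgebraAutOnUnits F L) ⟶ Rep.ofAlgebraAutOnUnits F E :=
  Rep.ofHom ⟨unitsIncl h, fun σ => by
    ext x
    exact resHom_apply h σ ((Additive.toMul x : Lˣ) : L)⟩

/-- Inflation `H²(Gal(L/F), Lˣ) → H²(Gal(E/F), Eˣ)`. -/
def inflH2 [Normal F L] (h : L ≤ E) :
    groupCohomology.H2 (Rep.ofAlgebraAutOnUnits F L) ⟶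
      groupCohomology.H2 (Rep.ofAlgebraAutOnUnits F E) :=
  groupCohomology.map (resHom h) (inflRep h) 2

/-- `E` over `L` is `E` (as `F`-algebras). -/
def upEquiv (h : L ≤ E) : (extendScalars h) ≃ₐ[F] E :=
  AlgEquiv.ofBijective
    { toFun := fun x => ⟨x.1, x.2⟩
      map_one' := rfl
      map_mul' := fun _ _ => rfl
      map_zero' := rfl
      map_add' := fun _ _ => rfl
      commutes' := fun _ => rfl }
    ⟨fun _ _ hxy => Subtype.ext (congrArg Subtype.val hxy), fun y => ⟨⟨y.1, y.2⟩, rfl⟩⟩

@[simp] theorem upEquiv_apply_coe (h : L ≤ E) (x : extendScalars h) :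
    ((upEquiv h x : E) : PadicAlgCl q) = x := rfl

@[simp] theorem upEquiv_symm_apply_coe (h : L ≤ E) (x : E) :
    (((upEquiv h).symm x : extendScalars h) : PadicAlgCl q) = x := by
  obtain ⟨y, rfl⟩ := (upEquiv h).surjective x
  simp

/-- `Gal(E/L) → Gal(E/F)`. -/
def upHom (h : L ≤ E) : ((extendScalars h) ≃ₐ[L] (extendScalars h)) →* (E ≃ₐ[F] E) where
  toFun σ := ((upEquiv h).symm.trans (σ.restrictScalars F)).trans (upEquiv h)
  map_one' := by ext x; simp
  map_mul' σ τ := by ext x; simp

theorem upHom_apply_coe (h : L ≤ E) (σ : (extendScalars h) ≃ₐ[L] (extendScalars h)) (x : E) :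
    ((upHom h σ x : E) : PadicAlgCl q) = (σ ((upEquiv h).symm x) : extendScalars h) := rfl

/-- The identification `Eˣ → (E over L)ˣ`, written additively. -/
def unitsUp (h : L ≤ E) : Additive Eˣ →ₗ[ℤ] Additive (extendScalars h)ˣ :=
  (MonoidHom.toAdditive (Units.map (((upEquiv h).symm : E →ₐ[F] extendScalars h) :
    E →* extendScalars h))).toIntLinearMap

/-- The coefficient map of restriction. -/
def upRep (h : L ≤ E) :
    Rep.res (upHom h) (Rep.ofAlgebraAutOnUnits F E) ⟶
      Rep.ofAlgebraAutOnUnits L (extendScalars h) :=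
  Rep.ofHom ⟨unitsUp h, fun σ => by
    ext x
    exact (upEquiv_symm_apply_coe h (upHom h σ ((Additive.toMul x : Eˣ) : E))).trans
      (upHom_apply_coe h σ ((Additive.toMul x : Eˣ) : E))⟩

/-- Restriction `H²(Gal(E/F), Eˣ) → H²(Gal(E/L), Eˣ)`. -/
def resH2 (h : L ≤ E) :
    groupCohomology.H2 (Rep.ofAlgebraAutOnUnits F E) ⟶
      groupCohomology.H2 (Rep.ofAlgebraAutOnUnits L (extendScalars h)) :=
  groupCohomology.map (upHom h) (upRep h) 2

end Coh

end Fermat.Agent.S55.H66
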