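/-
Program C (S55), package C3 (local fields in the `PadicAlgCl q` model):
LEAF STATEMENTS (as `Prop`s) and the ASSEMBLY of the package exports from them.
Designer: helper66.  See `LocalDefs.lean` for the model.

Every leaf is a closed `Prop` (`Leaf…`); a prover lands a file proving `theorem leaf… : Leaf… q`.
The assembly at the end derives the exports (`card_H2`, `isAddCyclic_H2`) from the leaves.
-/
import Fermat.Agent.S55.H66.LocalDefs

set_option autoImplicit false

noncomputable section

namespace Fermat.Agent.S55.H66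

open IntermediateField

variable (q : ℕ) [Fact q.Prime]

/-! ### L1: foundations -/

/-- L1a: an embedded local field is discretely valued. -/
def LeafUnif : Prop :=
  ∀ (F : Type) [Field F] [Algebra ℚ_[q] F] [Algebra F (PadicAlgCl q)]
    [IsScalarTower ℚ_[q] F (PadicAlgCl q)] [FiniteDimensional ℚ_[q] F],
    ∃ π : F, π ≠ 0 ∧ nrm q π < 1 ∧ ∀ x : F, x ≠ 0 → ∃ n : ℤ, nrm q x = nrm q π ^ n

/-- L1b: the residue field is finite (so `resCard q F` is its genuine cardinality, `≥ 2`). -/
def LeafResFinite : Prop :=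
  ∀ (F : Type) [Field F] [Algebra ℚ_[q] F] [Algebra F (PadicAlgCl q)]
    [IsScalarTower ℚ_[q] F (PadicAlgCl q)] [FiniteDimensional ℚ_[q] F],
    Finite (IsLocalRing.ResidueField (intRing q F))

/-! ### L2: unramified extensions -/

/-- L2a: `unramExt q F n` is unramified, Galois, cyclic, of degree `n`. -/
def LeafUnram : Prop :=
  ∀ (F : Type) [Field F] [Algebra ℚ_[q] F] [Algebra F (PadicAlgCl q)]
    [IsScalarTower ℚ_[q] F (PadicAlgCl q)] [FiniteDimensional ℚ_[q] F] (n : ℕ), 0 < n →
    FiniteDimensional F (unramExt q F n) ∧ Module.finrank F (unramExt q F n) = n ∧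
      IsGalois F (unramExt q F n) ∧ IsCyclic (unramExt q F n ≃ₐ[F] unramExt q F n) ∧
      IsUnram q F (unramExt q F n)

/-- L2b: uniqueness of unramified extensions. -/
def LeafUnramUnique : Prop :=
  ∀ (F : Type) [Field F] [Algebra ℚ_[q] F] [Algebra F (PadicAlgCl q)]
    [IsScalarTower ℚ_[q] F (PadicAlgCl q)] [FiniteDimensional ℚ_[q] F]
    (L : IntermediateField F (PadicAlgCl q)) [FiniteDimensional F L],
    IsUnram q F L → L = unramExt q F (Module.finrank F L)

/-- L2c: a Kummer extension by a unit, of degree prime to the residue characteristic, is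
unramified. -/
def LeafKummerUnram : Prop :=
  ∀ (F : Type) [Field F] [Algebra ℚ_[q] F] [Algebra F (PadicAlgCl q)]
    [IsScalarTower ℚ_[q] F (PadicAlgCl q)] [FiniteDimensional ℚ_[q] F]
    (p : ℕ), p.Prime → p ≠ q → ∀ (a : F), nrm q a = 1 → ∀ α : PadicAlgCl q,
    α ^ p = algebraMap F (PadicAlgCl q) a → IsUnram q F (IntermediateField.adjoin F {α})

/-! ### L3: units in unramified extensions -/

/-- L3a: the norm is surjective on units of an unramified extension. -/
def LeafUnitNorm : Prop :=
  ∀ (F : Type) [Field F] [Algebra ℚ_[q] F] [Algebra F (PadicAlgCl q)]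
    [IsScalarTower ℚ_[q] F (PadicAlgCl q)] [FiniteDimensional ℚ_[q] F]
    (L : IntermediateField F (PadicAlgCl q)) [FiniteDimensional F L],
    IsUnram q F L → ∀ u : F, nrm q u = 1 → ∃ v : L, nrm q v = 1 ∧ Algebra.norm F v = u

/-- L3b: Hilbert 90 for units of an unramified (cyclic) extension. -/
def LeafUnitH90 : Prop :=
  ∀ (F : Type) [Field F] [Algebra ℚ_[q] F] [Algebra F (PadicAlgCl q)]
    [IsScalarTower ℚ_[q] F (PadicAlgCl q)] [FiniteDimensional ℚ_[q] F]
    (L : IntermediateField F (PadicAlgCl q)) [FiniteDimensional F L] [IsGalois F L],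
    IsUnram q F L → ∀ σ : L ≃ₐ[F] L, (∀ τ : L ≃ₐ[F] L, τ ∈ Subgroup.zpowers σ) →
      ∀ u : L, nrm q u = 1 → Algebra.norm F u = 1 → ∃ v : L, nrm q v = 1 ∧ u * v = σ v

/-- L3c: for `L/F` of degree `n`, every nonzero element of `F` is a norm from the compositum
`L · F_n` to `L` (`F_n` the unramified extension of degree `n`): the compositum is unramified
over `L` of degree `e(L/F)`, which divides the `L`-valuation of every element of `F`. -/
def LeafNormCompositum : Prop :=
  ∀ (F : Type) [Field F] [Algebra ℚ_[q] F] [Algebra F (PadicAlgCl q)]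
    [IsScalarTower ℚ_[q] F (PadicAlgCl q)] [FiniteDimensional ℚ_[q] F]
    (L : IntermediateField F (PadicAlgCl q)) [FiniteDimensional F L],
    ∀ x : F, x ≠ 0 →
      ∃ y : extendScalars (le_sup_left : L ≤ L ⊔ unramExt q F (Module.finrank F L)),
        Algebra.norm L y = algebraMap F L x

/-! ### L4: the norm index of a cyclic extension -/

/-- L4: `(Fˣ : N Lˣ) = [L : F]` for `L/F` cyclic. -/
def LeafNormIndex : Prop :=
  ∀ (F : Type) [Field F] [Algebra ℚ_[q] F] [Algebra F (PadicAlgCl q)]
    [IsScalarTower ℚ_[q] F (PadicAlgCl q)] [FiniteDimensional ℚ_[q] F]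
    (L : IntermediateField F (PadicAlgCl q)) [FiniteDimensional F L] [IsGalois F L],
    IsCyclic (L ≃ₐ[F] L) →
      (Units.map (Algebra.norm F : L →* F)).range.index = Module.finrank F L

/-! ### L5: index formulas -/

/-- L5a: `(Fˣ : Fˣᵖ) = p · #μ_p(F) · q^{[F:ℚ_q]·[p = q]}`. -/
def LeafPowIndex : Prop :=
  ∀ (F : Type) [Field F] [Algebra ℚ_[q] F] [Algebra F (PadicAlgCl q)]
    [IsScalarTower ℚ_[q] F (PadicAlgCl q)] [FiniteDimensional ℚ_[q] F] (p : ℕ), p.Prime →
    (powMonoidHom p : Fˣ →* Fˣ).range.index =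
      p * Nat.card (rootsOfUnity p F) * (if p = q then q ^ Module.finrank ℚ_[q] F else 1)

/-- L5b: `(U : Uᵖ) = #μ_p(F) · q^{[F:ℚ_q]·[p = q]}` for the unit group `U`. -/
def LeafUnitPowIndex : Prop :=
  ∀ (F : Type) [Field F] [Algebra ℚ_[q] F] [Algebra F (PadicAlgCl q)]
    [IsScalarTower ℚ_[q] F (PadicAlgCl q)] [FiniteDimensional ℚ_[q] F] (p : ℕ), p.Prime →
    ((unitGroup q F).map (powMonoidHom p : Fˣ →* Fˣ)).relIndex (unitGroup q F) =
      Nat.card (rootsOfUnity p F) * (if p = q then q ^ Module.finrank ℚ_[q] F else 1)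

/-! ### L6–L7: second cohomology of `Lˣ` -/

/-- L6a: `H²` of an unramified extension of degree `n` is cyclic of order `n`
(from L3a, L4 and the cyclic formula `#H² = [ker(σ-1) : im N]`). -/
def LeafH2Unram : Prop :=
  ∀ (F : Type) [Field F] [Algebra ℚ_[q] F] [Algebra F (PadicAlgCl q)]
    [IsScalarTower ℚ_[q] F (PadicAlgCl q)] [FiniteDimensional ℚ_[q] F] (n : ℕ), 0 < n →
    IsAddCyclic (groupCohomology.H2 (Rep.ofAlgebraAutOnUnits F (unramExt q F n))) ∧
      Nat.card (groupCohomology.H2 (Rep.ofAlgebraAutOnUnits F (unramExt q F n))) = n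

/-- L6b: `#H²(Gal(L/F), Lˣ) ≤ [L : F]` for every finite Galois `L/F`
(Sylow + solvable dévissage from L4, Hilbert 90 and inflation–restriction). -/
def LeafH2Le : Prop :=
  ∀ (F : Type) [Field F] [Algebra ℚ_[q] F] [Algebra F (PadicAlgCl q)]
    [IsScalarTower ℚ_[q] F (PadicAlgCl q)] [FiniteDimensional ℚ_[q] F]
    (L : IntermediateField F (PadicAlgCl q)) [FiniteDimensional F L] [IsGalois F L],
    Finite (groupCohomology.H2 (Rep.ofAlgebraAutOnUnits F L)) ∧
      Nat.card (groupCohomology.H2 (Rep.ofAlgebraAutOnUnits F L)) ≤ Module.finrank F L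

/-- L6c: inflation is injective on `H²` (Hilbert 90 + inflation–restriction). -/
def LeafInflInj : Prop :=
  ∀ (F : Type) [Field F] [Algebra ℚ_[q] F] [Algebra F (PadicAlgCl q)]
    [IsScalarTower ℚ_[q] F (PadicAlgCl q)] [FiniteDimensional ℚ_[q] F]
    (L E : IntermediateField F (PadicAlgCl q)) [FiniteDimensional F L] [IsGalois F L]
    [FiniteDimensional F E] [IsGalois F E] (h : L ≤ E),
    Function.Injective (inflH2 h).hom

/-- L6d: exactness of inflation–restriction at `H²(Gal(E/F), Eˣ)`. -/
def LeafInfRes : Prop :=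
  ∀ (F : Type) [Field F] [Algebra ℚ_[q] F] [Algebra F (PadicAlgCl q)]
    [IsScalarTower ℚ_[q] F (PadicAlgCl q)] [FiniteDimensional ℚ_[q] F]
    (L E : IntermediateField F (PadicAlgCl q)) [FiniteDimensional F L] [IsGalois F L]
    [FiniteDimensional F E] [IsGalois F E] (h : L ≤ E)
    (x : groupCohomology.H2 (Rep.ofAlgebraAutOnUnits F E)),
    (resH2 h).hom x = 0 → ∃ y, (inflH2 h).hom y = x

/-- L7: the unramified classes of degree `n = [L : F]` die on `L`. -/
def LeafResInflUnram : Prop :=
  ∀ (F : Type) [Field F] [Algebra ℚ_[q] F] [Algebra F (PadicAlgCl q)]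
    [IsScalarTower ℚ_[q] F (PadicAlgCl q)] [FiniteDimensional ℚ_[q] F]
    (L : IntermediateField F (PadicAlgCl q)) [FiniteDimensional F L] [IsGalois F L]
    [Normal F (unramExt q F (Module.finrank F L))]
    (y : groupCohomology.H2
      (Rep.ofAlgebraAutOnUnits F (unramExt q F (Module.finrank F L)))),
    (resH2 (le_sup_left : L ≤ L ⊔ unramExt q F (Module.finrank F L))).hom
      ((inflH2 (le_sup_right : unramExt q F (Module.finrank F L) ≤
        L ⊔ unramExt q F (Module.finrank F L))).hom y) = 0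

/-! ### Assembly: the local fundamental theorem -/

section Assembly

variable {q}
variable (hUnram : LeafUnram q) (hH2Unram : LeafH2Unram q) (hH2Le : LeafH2Le q)
  (hInflInj : LeafInflInj q) (hInfRes : LeafInfRes q) (hResInfl : LeafResInflUnram q)

include hUnram hH2Unram hH2Le hInflInj hInfRes hResInfl in
/-- EXPORT (L8): for every finite Galois extension `L/F` of embedded local fields,
`H²(Gal(L/F), Lˣ)` is cyclic of order `[L : F]`. -/
theorem card_H2_and_cyclic
    (F : Type) [Field F] [Algebra ℚ_[q] F] [Algebra F (PadicAlgCl q)]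
    [IsScalarTower ℚ_[q] F (PadicAlgCl q)] [FiniteDimensional ℚ_[q] F]
    (L : IntermediateField F (PadicAlgCl q)) [FiniteDimensional F L] [IsGalois F L] :
    IsAddCyclic (groupCohomology.H2 (Rep.ofAlgebraAutOnUnits F L)) ∧
      Nat.card (groupCohomology.H2 (Rep.ofAlgebraAutOnUnits F L)) = Module.finrank F L := by
  classical
  have hn : 0 < Module.finrank F L := Module.finrank_pos
  obtain ⟨hfin, -, hgal, -, -⟩ := hUnram F (Module.finrank F L) hn
  haveI := hfin
  haveI := hgal
  obtain ⟨hcyc, hcard⟩ := hH2Unram F (Module.finrank F L) hn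
  obtain ⟨hBfin, hBle⟩ := hH2Le F L
  haveI := hBfin
  haveI : IsGalois F ↥(L ⊔ unramExt q F (Module.finrank F L)) := ⟨⟩
  let j₁ := (inflH2 (le_sup_right : unramExt q F (Module.finrank F L) ≤
        L ⊔ unramExt q F (Module.finrank F L))).hom.toAddMonoidHom
  let j₂ := (inflH2 (le_sup_left : L ≤ L ⊔ unramExt q F (Module.finrank F L))).hom.toAddMonoidHom
  have hi₁ : Function.Injective j₁ :=
    hInflInj F (unramExt q F (Module.finrank F L)) (L ⊔ unramExt q F (Module.finrank F L))
      le_sup_right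
  have hi₂ : Function.Injective j₂ :=
    hInflInj F L (L ⊔ unramExt q F (Module.finrank F L)) le_sup_left
  have hle : j₁.range ≤ j₂.range := by
    rintro _ ⟨y, rfl⟩
    obtain ⟨b, hb⟩ := hInfRes F L (L ⊔ unramExt q F (Module.finrank F L)) le_sup_left _
      (hResInfl F L y)
    exact ⟨b, hb⟩
  let g := ((AddMonoidHom.ofInjective hi₂).symm.toAddMonoidHom.comp
    (AddSubgroup.inclusion hle)).comp (AddMonoidHom.ofInjective hi₁).toAddMonoidHom
  have hg : Function.Injective g :=
    ((AddMonoidHom.ofInjective hi₂).symm.injective.comp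
      (AddSubgroup.inclusion_injective hle)).comp (AddMonoidHom.ofInjective hi₁).injective
  have h1 : Module.finrank F L ≤
      Nat.card (groupCohomology.H2 (Rep.ofAlgebraAutOnUnits F L)) := by
    rw [← hcard]
    exact Nat.card_le_card_of_injective g hg
  have hcardB : Nat.card (groupCohomology.H2 (Rep.ofAlgebraAutOnUnits F L)) =
      Module.finrank F L := le_antisymm hBle h1
  refine ⟨?_, hcardB⟩
  have hbij : Function.Bijective g :=
    hg.bijective_of_nat_card_le (by rw [hcardB, hcard])
  haveI := hcyc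
  exact isAddCyclic_of_surjective g hbij.2

end Assembly

end Fermat.Agent.S55.H66
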