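/-
Program C (S55), package C3: the NORMALISED LOCAL INVARIANT (v2 of the C3 interface).
Designer: helper66.

`inv q F L : H²(Gal(L/F), Lˣ) →+ ℚ/ℤ` for every finite Galois extension `L/F` of embedded local
fields, defined by its characterising property (`IsInv`): it agrees, after inflation to a
compositum with an unramified extension, with the unramified invariant
`cycClass φ a ↦ ord(a)/n` (`φ` the Frobenius).  The leaves state that the specification is
satisfied and the properties consumed by C4/C8 (injectivity, inflation, restriction,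
unramified formula).
-/
import Fermat.Agent.S55.H66.LocalSpec
import Fermat.Agent.S55.H66.CycDefs

set_option autoImplicit false

noncomputable section

namespace Fermat.Agent.S55.H66

open IntermediateField CategoryTheory groupCohomology

variable (q : ℕ) [Fact q.Prime]

/-- `ℚ/ℤ`. -/
abbrev QZ : Type := AddCircle (1 : ℚ)

section Defs

variable (F : Type) [Field F] [Algebra F (PadicAlgCl q)]

/-- The norm of a uniformiser of `F`: the largest norm `< 1`. -/
def unifNrm : ℝ := sSup {r : ℝ | r < 1 ∧ ∃ y : F, nrm q y = r}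

variable {F} in
open Classical in
/-- The normalised (additive) valuation of `F`, `nrm q x = unifNrm q F ^ ord q x`
(junk value `0` at `x = 0`). -/
def ord (x : F) : ℤ := if h : ∃ n : ℤ, nrm q x = unifNrm q F ^ n then h.choose else 0

variable {F} in
/-- `φ` is a Frobenius of `L/F`: `φ x ≡ x ^ #k_F` modulo the maximal ideal, for integral `x`. -/
def IsFrob (L : IntermediateField F (PadicAlgCl q)) (φ : L ≃ₐ[F] L) : Prop :=
  ∀ x : L, nrm q x ≤ 1 → nrm q (φ x - x ^ resCard q F) < 1

variable {q F} in
/-- An element of `Fˣ` as an element of the Galois module `Lˣ`. -/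
def baseUnit (L : IntermediateField F (PadicAlgCl q)) (a : Fˣ) :
    Rep.ofAlgebraAutOnUnits F L :=
  Rep.toAdditive.symm (Additive.ofMul (Units.map (algebraMap F L : F →* L) a))

variable {F} in
/-- The specification of the invariant on unramified classes. -/
def IsInvUnr (L : IntermediateField F (PadicAlgCl q))
    (f : groupCohomology.H2 (Rep.ofAlgebraAutOnUnits F L) →+ QZ) : Prop :=
  ∀ φ : L ≃ₐ[F] L, IsFrob q L φ → ∀ a : Fˣ,
    f (cycClass (Rep.ofAlgebraAutOnUnits F L) φ (baseUnit L a)) =
      (((ord q (a : F) : ℚ) / (Module.finrank F L : ℚ) : ℚ) : QZ)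

variable {F} in
/-- The specification of the invariant map of `L/F`: compatibility, after inflation to
`L ⊔ unramExt q F n` (`n > 0`; for `n = 0` the field `unramExt q F 0` is all of `Ω`), with any
map satisfying the unramified specification. -/
def IsInv (L : IntermediateField F (PadicAlgCl q)) [Normal F L]
    (f : groupCohomology.H2 (Rep.ofAlgebraAutOnUnits F L) →+ QZ) : Prop :=
  ∀ (n : ℕ) [Normal F (unramExt q F n)]
    (g : groupCohomology.H2 (Rep.ofAlgebraAutOnUnits F (unramExt q F n)) →+ QZ),
    0 < n → IsInvUnr q (unramExt q F n) g →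
    ∀ (x : groupCohomology.H2 (Rep.ofAlgebraAutOnUnits F L))
      (y : groupCohomology.H2 (Rep.ofAlgebraAutOnUnits F (unramExt q F n))),
      (inflH2 (le_sup_left : L ≤ L ⊔ unramExt q F n)).hom x =
        (inflH2 (le_sup_right : unramExt q F n ≤ L ⊔ unramExt q F n)).hom y → f x = g y

variable {F} in
open Classical in
/-- THE LOCAL INVARIANT `inv_{L/F} : H²(Gal(L/F), Lˣ) →+ ℚ/ℤ`. -/
def inv (L : IntermediateField F (PadicAlgCl q)) [Normal F L] :
    groupCohomology.H2 (Rep.ofAlgebraAutOnUnits F L) →+ QZ :=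
  if h : ∃ f, IsInv q L f then h.choose else 0

end Defs

/-! ### Leaves -/

/-- V1: the normalised valuation. -/
def LeafOrd : Prop :=
  ∀ (F : Type) [Field F] [Algebra ℚ_[q] F] [Algebra F (PadicAlgCl q)]
    [IsScalarTower ℚ_[q] F (PadicAlgCl q)] [FiniteDimensional ℚ_[q] F],
    0 < unifNrm q F ∧ unifNrm q F < 1 ∧ (∃ π : F, nrm q π = unifNrm q F) ∧
      ∀ x : F, x ≠ 0 → nrm q x = unifNrm q F ^ ord q x

/-- V2: an unramified Galois extension has a unique Frobenius, and it generates the Galois
group. -/
def LeafFrob : Prop :=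
  ∀ (F : Type) [Field F] [Algebra ℚ_[q] F] [Algebra F (PadicAlgCl q)]
    [IsScalarTower ℚ_[q] F (PadicAlgCl q)] [FiniteDimensional ℚ_[q] F]
    (L : IntermediateField F (PadicAlgCl q)) [FiniteDimensional F L] [IsGalois F L],
    IsUnram q F L → ∃ φ : L ≃ₐ[F] L, IsFrob q L φ ∧ (∀ ψ : L ≃ₐ[F] L, IsFrob q L ψ → ψ = φ) ∧
      ∀ τ : L ≃ₐ[F] L, τ ∈ Subgroup.zpowers φ

/-- V3: `inv` satisfies its specification, is injective, and its image is the
`[L:F]`-torsion of `ℚ/ℤ`. -/
def LeafInv : Prop :=
  ∀ (F : Type) [Field F] [Algebra ℚ_[q] F] [Algebra F (PadicAlgCl q)]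
    [IsScalarTower ℚ_[q] F (PadicAlgCl q)] [FiniteDimensional ℚ_[q] F]
    (L : IntermediateField F (PadicAlgCl q)) [FiniteDimensional F L] [IsGalois F L],
    IsInv q L (inv q L) ∧ Function.Injective (inv q L) ∧
      ∀ z : QZ, (∃ x, inv q L x = z) ↔ Module.finrank F L • z = 0

/-- V4: the unramified formula `inv (cycClass φ a) = ord(a)/[L:F]`, `φ` the Frobenius. -/
def LeafInvUnr : Prop :=
  ∀ (F : Type) [Field F] [Algebra ℚ_[q] F] [Algebra F (PadicAlgCl q)]
    [IsScalarTower ℚ_[q] F (PadicAlgCl q)] [FiniteDimensional ℚ_[q] F]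
    (L : IntermediateField F (PadicAlgCl q)) [FiniteDimensional F L] [IsGalois F L],
    IsUnram q F L → IsInvUnr q L (inv q L)

/-- V5: `inv` is compatible with inflation. -/
def LeafInvInfl : Prop :=
  ∀ (F : Type) [Field F] [Algebra ℚ_[q] F] [Algebra F (PadicAlgCl q)]
    [IsScalarTower ℚ_[q] F (PadicAlgCl q)] [FiniteDimensional ℚ_[q] F]
    (L E : IntermediateField F (PadicAlgCl q)) [FiniteDimensional F L] [IsGalois F L]
    [FiniteDimensional F E] [IsGalois F E] (h : L ≤ E)
    (x : groupCohomology.H2 (Rep.ofAlgebraAutOnUnits F L)),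
    inv q E ((inflH2 h).hom x) = inv q L x

/-- V6: restriction multiplies `inv` by the degree. -/
def LeafInvRes : Prop :=
  ∀ (F : Type) [Field F] [Algebra ℚ_[q] F] [Algebra F (PadicAlgCl q)]
    [IsScalarTower ℚ_[q] F (PadicAlgCl q)] [FiniteDimensional ℚ_[q] F]
    (L E : IntermediateField F (PadicAlgCl q)) [FiniteDimensional F L]
    [FiniteDimensional F E] [IsGalois F E] (h : L ≤ E)
    [FiniteDimensional L (extendScalars h)] [IsGalois L (extendScalars h)]
    (x : groupCohomology.H2 (Rep.ofAlgebraAutOnUnits F E)),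
    inv q (extendScalars h) ((resH2 h).hom x) = Module.finrank F L • inv q E x

end Fermat.Agent.S55.H66
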