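/-
Program C (S55), package C3: the bridge from an embedded local field `F` to helper88's model
`K : IntermediateField ℚ_[q] (PadicAlgCl q)` (`K = absField q F`, the image of `F` in `Ω`), and
the foundation leaves `LeafUnif`, `LeafResFinite`, `LeafOrd`.
-/
import Fermat.Agent.S55.H66.InvSpec
import Fermat.Agent.S55.H88.LocalInt

set_option autoImplicit false

noncomputable section

namespace Fermat.Agent.S55.H66

open IntermediateField

variable (q : ℕ) [Fact q.Prime]

section Bridge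

variable (F : Type) [Field F] [Algebra ℚ_[q] F] [Algebra F (PadicAlgCl q)]
  [IsScalarTower ℚ_[q] F (PadicAlgCl q)]

/-- The image of `F` in `Ω`, as an intermediate field of `Ω/ℚ_q`. -/
def absField : IntermediateField ℚ_[q] (PadicAlgCl q) :=
  (IsScalarTower.toAlgHom ℚ_[q] F (PadicAlgCl q)).fieldRange

/-- `F` is its image. -/
def toAbs : F ≃ₐ[ℚ_[q]] absField q F :=
  AlgEquiv.ofInjectiveField (IsScalarTower.toAlgHom ℚ_[q] F (PadicAlgCl q))

@[simp] theorem coe_toAbs (x : F) :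
    ((toAbs q F x : absField q F) : PadicAlgCl q) = algebraMap F (PadicAlgCl q) x := rfl

theorem nrm_eq (x : F) : nrm q x = ‖(toAbs q F x : absField q F)‖ := rfl

theorem nrm_toAbs_symm (y : absField q F) : nrm q ((toAbs q F).symm y) = ‖y‖ := by
  rw [nrm_eq, AlgEquiv.apply_symm_apply]

instance instFinAbs [FiniteDimensional ℚ_[q] F] : FiniteDimensional ℚ_[q] (absField q F) :=
  (toAbs q F).toLinearEquiv.finiteDimensional

omit [Algebra ℚ_[q] F] [IsScalarTower ℚ_[q] F (PadicAlgCl q)] in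
theorem mem_intRing_iff (x : F) : x ∈ intRing q F ↔ nrm q x ≤ 1 := by
  show ‖algebraMap F (PadicAlgCl q) x‖₊ ≤ 1 ↔ ‖algebraMap F (PadicAlgCl q) x‖ ≤ 1
  rw [← NNReal.coe_le_coe]
  rfl

/-- The valuation rings correspond. -/
def intEquiv : intRing q F ≃+* H88.integerRing (absField q F) where
  toFun x := ⟨toAbs q F x, by
    rw [H88.mem_integerRing_iff, ← nrm_eq]
    exact (mem_intRing_iff q F x).1 x.2⟩
  invFun y := ⟨(toAbs q F).symm y, by
    rw [mem_intRing_iff, nrm_toAbs_symm]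
    exact (H88.mem_integerRing_iff (absField q F)).1 y.2⟩
  left_inv x := Subtype.ext ((toAbs q F).symm_apply_apply x)
  right_inv y := Subtype.ext ((toAbs q F).apply_symm_apply y)
  map_mul' x y := Subtype.ext (map_mul (toAbs q F) (x : F) (y : F))
  map_add' x y := Subtype.ext (map_add (toAbs q F) (x : F) (y : F))

end Bridge

/-- L1a. -/
theorem leafUnif : LeafUnif q := by
  intro F _ _ _ _ _
  obtain ⟨e, π, he, -, hπ, hall⟩ := H88.exists_uniformiser (absField q F)
  have hq1 : (1 : ℝ) < q := by exact_mod_cast (Fact.out : q.Prime).one_lt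
  have hπ0 : π ≠ 0 := by
    rintro rfl
    rw [ZeroMemClass.coe_zero, norm_zero, zero_pow he.ne'] at hπ
    have : (0 : ℝ) < (q : ℝ)⁻¹ := by positivity
    linarith
  have hπlt : ‖(π : PadicAlgCl q)‖ < 1 := by
    by_contra h
    rw [not_lt] at h
    have h1 : (1 : ℝ) ≤ ‖(π : PadicAlgCl q)‖ ^ e := one_le_pow₀ h
    rw [hπ] at h1
    have : (q : ℝ)⁻¹ < 1 := inv_lt_one_of_one_lt₀ hq1
    linarith
  refine ⟨(toAbs q F).symm π, ?_, ?_, ?_⟩
  · simpa using hπ0
  · rw [nrm_toAbs_symm]; exact hπlt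
  · intro x hx
    have hx' : toAbs q F x ≠ 0 := by simpa using hx
    obtain ⟨m, hm⟩ := hall (toAbs q F x) hx'
    exact ⟨m, by rw [nrm_toAbs_symm, nrm_eq]; exact hm⟩

/-- L1b. -/
theorem leafResFinite : LeafResFinite q := by
  intro F _ _ _ _ _
  haveI := H88.finite_residueField (absField q F)
  exact Finite.of_equiv _ (IsLocalRing.ResidueField.mapEquiv (intEquiv q F)).symm.toEquiv

/-- The norm of a uniformiser is `unifNrm`. -/
theorem unifNrm_eq (F : Type) [Field F] [Algebra F (PadicAlgCl q)] (π : F)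
    (hπ0 : π ≠ 0) (hπ1 : nrm q π < 1)
    (hall : ∀ x : F, x ≠ 0 → ∃ n : ℤ, nrm q x = nrm q π ^ n) : unifNrm q F = nrm q π := by
  have hpos : 0 < nrm q π := by
    simp only [nrm, norm_pos_iff, ne_eq, map_eq_zero]
    exact hπ0
  have hgreat : IsGreatest {r : ℝ | r < 1 ∧ ∃ y : F, nrm q y = r} (nrm q π) := by
    refine ⟨⟨hπ1, π, rfl⟩, ?_⟩
    rintro r ⟨hr1, y, rfl⟩
    by_cases hy : y = 0
    · subst hy
      simp [nrm]
    · obtain ⟨n, hn⟩ := hall y hy
      rw [hn] at hr1 ⊢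
      have hn1 : 1 ≤ n := by
        by_contra hlt
        rw [not_le] at hlt
        have hn0 : n ≤ 0 := by omega
        have : (1 : ℝ) ≤ nrm q π ^ n := by
          obtain ⟨m, rfl⟩ : ∃ m : ℕ, n = -(m : ℤ) := ⟨(-n).toNat, by omega⟩
          rw [zpow_neg, zpow_natCast]
          exact (one_le_inv₀ (pow_pos hpos m)).2 (pow_le_one₀ hpos.le hπ1.le)
        linarith
      calc nrm q π ^ n ≤ nrm q π ^ (1 : ℤ) :=
            zpow_le_zpow_right_of_le_one₀ hpos hπ1.le hn1
        _ = nrm q π := zpow_one _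
  exact hgreat.csSup_eq

/-- V1. -/
theorem leafOrd : LeafOrd q := by
  intro F _ _ _ _ _
  obtain ⟨π, hπ0, hπ1, hall⟩ := leafUnif q F
  have hu : unifNrm q F = nrm q π := unifNrm_eq q F π hπ0 hπ1 hall
  have hpos : 0 < nrm q π := by
    simp only [nrm, norm_pos_iff, ne_eq, map_eq_zero]
    exact hπ0
  refine ⟨hu ▸ hpos, hu ▸ hπ1, ⟨π, hu.symm⟩, ?_⟩
  intro x hx
  have h : ∃ n : ℤ, nrm q x = unifNrm q F ^ n := by
    obtain ⟨n, hn⟩ := hall x hx
    exact ⟨n, by rw [hu]; exact hn⟩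
  unfold ord
  rw [dif_pos h]
  exact h.choose_spec

end Fermat.Agent.S55.H66
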