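/-
Program C (S55), package C3: functoriality of `inflH2`, and the unramified lift
`exists_unram_lift` extracted from the assembly of `LocalSpec.lean`.
-/
import Fermat.Agent.S55.H66.InvSpec

set_option autoImplicit false

noncomputable section

namespace Fermat.Agent.S55.H66

open IntermediateField CategoryTheory groupCohomology

variable {q : ℕ} [Fact q.Prime]

section Comp

variable {F : Type} [Field F] [Algebra F (PadicAlgCl q)]
variable {L E E' : IntermediateField F (PadicAlgCl q)}

theorem resHom_comp [Normal F L] [Normal F E] (h₁ : L ≤ E) (h₂ : E ≤ E') :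
    (resHom h₁).comp (resHom h₂) = resHom (h₁.trans h₂) := by
  ext σ x
  rw [MonoidHom.comp_apply, resHom_apply, resHom_apply, resHom_apply]
  rfl

theorem inflH2_comp [Normal F L] [Normal F E] (h₁ : L ≤ E) (h₂ : E ≤ E') :
    inflH2 h₁ ≫ inflH2 h₂ = inflH2 (h₁.trans h₂) := by
  unfold inflH2
  rw [← groupCohomology.map_comp]
  refine groupCohomology.map_congr (resHom_comp h₁ h₂) ?_ 2
  rfl

theorem inflH2_comp_apply [Normal F L] [Normal F E] (h₁ : L ≤ E) (h₂ : E ≤ E')
    (x : groupCohomology.H2 (Rep.ofAlgebraAutOnUnits F L)) :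
    (inflH2 h₂).hom ((inflH2 h₁).hom x) = (inflH2 (h₁.trans h₂)).hom x := by
  rw [← inflH2_comp h₁ h₂]
  rfl

end Comp

variable (q) in
/-- The unramified invariant exists (Step A of the construction of `inv`). -/
def LeafInvUnrExists : Prop :=
  ∀ (F : Type) [Field F] [Algebra ℚ_[q] F] [Algebra F (PadicAlgCl q)]
    [IsScalarTower ℚ_[q] F (PadicAlgCl q)] [FiniteDimensional ℚ_[q] F] (n : ℕ)
    [Normal F (unramExt q F n)], 0 < n →
    ∃ g : groupCohomology.H2 (Rep.ofAlgebraAutOnUnits F (unramExt q F n)) →+ QZ,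
      IsInvUnr q (unramExt q F n) g ∧ Function.Injective g

section Lift

variable (hUnram : LeafUnram q) (hH2Unram : LeafH2Unram q) (hH2Le : LeafH2Le q)
  (hInflInj : LeafInflInj q) (hInfRes : LeafInfRes q) (hResInfl : LeafResInflUnram q)

include hUnram hH2Unram hH2Le hInflInj hInfRes hResInfl in
/-- Every class of `H²(Gal(L/F), Lˣ)` becomes, in `L ⊔ F_n` (`n = [L:F]`), the inflation of a
class of the unramified extension `F_n`. -/
theorem exists_unram_lift
    (F : Type) [Field F] [Algebra ℚ_[q] F] [Algebra F (PadicAlgCl q)]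
    [IsScalarTower ℚ_[q] F (PadicAlgCl q)] [FiniteDimensional ℚ_[q] F]
    (L : IntermediateField F (PadicAlgCl q)) [FiniteDimensional F L] [IsGalois F L]
    [Normal F (unramExt q F (Module.finrank F L))]
    (x : groupCohomology.H2 (Rep.ofAlgebraAutOnUnits F L)) :
    ∃ y : groupCohomology.H2 (Rep.ofAlgebraAutOnUnits F (unramExt q F (Module.finrank F L))),
      (inflH2 (le_sup_right : unramExt q F (Module.finrank F L) ≤
        L ⊔ unramExt q F (Module.finrank F L))).hom y =
      (inflH2 (le_sup_left : L ≤ L ⊔ unramExt q F (Module.finrank F L))).hom x := by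
  classical
  have hn : 0 < Module.finrank F L := Module.finrank_pos
  obtain ⟨hfin, -, hgal, -, -⟩ := hUnram F (Module.finrank F L) hn
  haveI := hfin
  haveI := hgal
  obtain ⟨hcyc, hcard⟩ := hH2Unram F (Module.finrank F L) hn
  obtain ⟨hBfin, hBle⟩ := hH2Le F L
  haveI := hBfin
  haveI : IsGalois F ↥(L ⊔ unramExt q F (Module.finrank F L)) := ⟨⟩
  let j₁ := (inflH2 (le_sup_right : unramExt q F (Module.finrank F L) ≤
        L ⊔ unramExt q F (Module.finrank F L))).hom.toAddMonoidHom
  let j₂ := (inflH2 (le_sup_left : L ≤ L ⊔ unramExt q F (Module.finrank F L))).hom.toAddMonoidHom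
  have hi₁ : Function.Injective j₁ :=
    hInflInj F (unramExt q F (Module.finrank F L)) (L ⊔ unramExt q F (Module.finrank F L))
      le_sup_right
  have hi₂ : Function.Injective j₂ :=
    hInflInj F L (L ⊔ unramExt q F (Module.finrank F L)) le_sup_left
  have hle : j₁.range ≤ j₂.range := by
    rintro _ ⟨y, rfl⟩
    obtain ⟨b, hb⟩ := hInfRes F L (L ⊔ unramExt q F (Module.finrank F L)) le_sup_left _
      (hResInfl F L y)
    exact ⟨b, hb⟩
  let g := ((AddMonoidHom.ofInjective hi₂).symm.toAddMonoidHom.comp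
    (AddSubgroup.inclusion hle)).comp (AddMonoidHom.ofInjective hi₁).toAddMonoidHom
  have hg : Function.Injective g :=
    ((AddMonoidHom.ofInjective hi₂).symm.injective.comp
      (AddSubgroup.inclusion_injective hle)).comp (AddMonoidHom.ofInjective hi₁).injective
  have h1 : Module.finrank F L ≤
      Nat.card (groupCohomology.H2 (Rep.ofAlgebraAutOnUnits F L)) := by
    rw [← hcard]
    exact Nat.card_le_card_of_injective g hg
  have hcardB : Nat.card (groupCohomology.H2 (Rep.ofAlgebraAutOnUnits F L)) =
      Module.finrank F L := le_antisymm hBle h1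
  have hbij : Function.Bijective g :=
    hg.bijective_of_nat_card_le (by rw [hcardB, hcard])
  obtain ⟨y, hy⟩ := hbij.2 x
  refine ⟨y, ?_⟩
  have key : j₂ (g y) = j₁ y := by
    show j₂ ((AddMonoidHom.ofInjective hi₂).symm
      (AddSubgroup.inclusion hle (AddMonoidHom.ofInjective hi₁ y))) = j₁ y
    rw [AddMonoidHom.apply_ofInjective_symm]
    rfl
  rw [hy] at key
  exact key.symm

end Lift

end Fermat.Agent.S55.H66
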