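/-
Program C (S55), package C3: assembly of `LeafInvUnr` and `LeafInvInfl` from `LeafInv`,
`LeafInvUnrExists` and the basic leaves.
-/
import Fermat.Agent.S55.H66.InflComp

set_option autoImplicit false

noncomputable section

namespace Fermat.Agent.S55.H66

open IntermediateField CategoryTheory groupCohomology

variable {q : ℕ} [Fact q.Prime]

/-- V4 from V3: the unramified formula. -/
theorem leafInvUnr_of (hInv : LeafInv q) (hEx : LeafInvUnrExists q)
    (hUU : LeafUnramUnique q) : LeafInvUnr q := by
  intro F _ _ _ _ _ L _ _ hun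
  have hL : L = unramExt q F (Module.finrank F L) := hUU F L hun
  have hn : 0 < Module.finrank F L := Module.finrank_pos
  have key : ∀ (n : ℕ), 0 < n → ∀ (L' : IntermediateField F (PadicAlgCl q))
      [FiniteDimensional F L'] [IsGalois F L'], L' = unramExt q F n →
      IsInvUnr q L' (inv q L') := by
    intro n hn L' _ _ hL'
    subst hL'
    obtain ⟨g, hg, -⟩ := hEx F n hn
    have hspec := (hInv F (unramExt q F n)).1
    have hgeq : inv q (unramExt q F n) = g := by
      ext x
      exact hspec n g hn hg x x rfl
    rw [hgeq]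
    exact hg
  exact key _ hn L hL

section Infl

variable (hInv : LeafInv q) (hEx : LeafInvUnrExists q)
  (hUnram : LeafUnram q) (hH2Unram : LeafH2Unram q) (hH2Le : LeafH2Le q)
  (hInflInj : LeafInflInj q) (hInfRes : LeafInfRes q) (hResInfl : LeafResInflUnram q)

include hInv hEx hUnram hH2Unram hH2Le hInflInj hInfRes hResInfl in
/-- V5 from V3: compatibility of `inv` with inflation. -/
theorem leafInvInfl_of : LeafInvInfl q := by
  intro F _ _ _ _ _ L E _ _ _ _ h x
  have hn : 0 < Module.finrank F L := Module.finrank_pos
  obtain ⟨hfin, -, hgal, -, -⟩ := hUnram F (Module.finrank F L) hn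
  haveI := hfin
  haveI := hgal
  obtain ⟨g, hg, -⟩ := hEx F (Module.finrank F L) hn
  obtain ⟨y, hy⟩ := exists_unram_lift hUnram hH2Unram hH2Le hInflInj hInfRes hResInfl F L x
  have h1 : inv q L x = g y := (hInv F L).1 (Module.finrank F L) g hn hg x y hy.symm
  have hLE : L ⊔ unramExt q F (Module.finrank F L) ≤ E ⊔ unramExt q F (Module.finrank F L) :=
    sup_le_sup_right h _
  have h2 : inv q E ((inflH2 h).hom x) = g y := by
    refine (hInv F E).1 (Module.finrank F L) g hn hg _ y ?_
    rw [inflH2_comp_apply h le_sup_left]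
    have e1 : (inflH2 (h.trans le_sup_left :
          L ≤ E ⊔ unramExt q F (Module.finrank F L))).hom x =
        (inflH2 hLE).hom ((inflH2 (le_sup_left :
          L ≤ L ⊔ unramExt q F (Module.finrank F L))).hom x) :=
      (inflH2_comp_apply le_sup_left hLE x).symm
    rw [e1, ← hy, inflH2_comp_apply le_sup_right hLE y]
  rw [h1, h2]

end Infl

end Fermat.Agent.S55.H66
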