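/-
Program C (S55), package C3: the hypotheses of Tate's theorem for the Galois module `Lˣ` of a
finite Galois extension of embedded local fields (export for C1 TATE / C9b: `H³ = 0`).

`LeafSubgroupH2` is the subgroup form of the local fundamental theorem (transport of
`card_H2_and_cyclic` and Hilbert 90 from `L/L^H` to the subgroup `H ≤ Gal(L/F)`); from it and
C1-b (`ker res` is killed by the index) we get `LocalTateHyp`: one class `u ∈ H²(G, Lˣ)` whose
restrictions generate `H²(H, Lˣ)` (cyclic of order `#H`) for every subgroup `H`, and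
`H¹(H, Lˣ) = 0`.
-/
import Fermat.Agent.S55.H66.InflComp
import Fermat.Agent.S55.H80.ResIndex

set_option autoImplicit false

noncomputable section

namespace Fermat.Agent.S55.H66

open IntermediateField CategoryTheory groupCohomology

variable (q : ℕ) [Fact q.Prime]

/-- Subgroup form of the local fundamental theorem. -/
def LeafSubgroupH2 : Prop :=
  ∀ (F : Type) [Field F] [Algebra ℚ_[q] F] [Algebra F (PadicAlgCl q)]
    [IsScalarTower ℚ_[q] F (PadicAlgCl q)] [FiniteDimensional ℚ_[q] F]
    (L : IntermediateField F (PadicAlgCl q)) [FiniteDimensional F L] [IsGalois F L]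
    (H : Subgroup (L ≃ₐ[F] L)),
    Subsingleton (groupCohomology (Rep.res H.subtype (Rep.ofAlgebraAutOnUnits F L)) 1) ∧
      IsAddCyclic (groupCohomology (Rep.res H.subtype (Rep.ofAlgebraAutOnUnits F L)) 2) ∧
      Nat.card (groupCohomology (Rep.res H.subtype (Rep.ofAlgebraAutOnUnits F L)) 2) =
        Nat.card H

/-- The local fundamental theorem (export of `LocalSpec.card_H2_and_cyclic`) as a `Prop`. -/
def LocalFundamental : Prop :=
  ∀ (F : Type) [Field F] [Algebra ℚ_[q] F] [Algebra F (PadicAlgCl q)]
    [IsScalarTower ℚ_[q] F (PadicAlgCl q)] [FiniteDimensional ℚ_[q] F]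
    (L : IntermediateField F (PadicAlgCl q)) [FiniteDimensional F L] [IsGalois F L],
    IsAddCyclic (groupCohomology.H2 (Rep.ofAlgebraAutOnUnits F L)) ∧
      Nat.card (groupCohomology.H2 (Rep.ofAlgebraAutOnUnits F L)) = Module.finrank F L

/-- The hypotheses of Tate's theorem for `Lˣ`. -/
def LocalTateHyp : Prop :=
  ∀ (F : Type) [Field F] [Algebra ℚ_[q] F] [Algebra F (PadicAlgCl q)]
    [IsScalarTower ℚ_[q] F (PadicAlgCl q)] [FiniteDimensional ℚ_[q] F]
    (L : IntermediateField F (PadicAlgCl q)) [FiniteDimensional F L] [IsGalois F L],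
    ∃ u : groupCohomology.H2 (Rep.ofAlgebraAutOnUnits F L),
      ∀ H : Subgroup (L ≃ₐ[F] L),
        Subsingleton (groupCohomology (Rep.res H.subtype (Rep.ofAlgebraAutOnUnits F L)) 1) ∧
        Nat.card (groupCohomology (Rep.res H.subtype (Rep.ofAlgebraAutOnUnits F L)) 2) =
          Nat.card H ∧
        ∀ y : groupCohomology (Rep.res H.subtype (Rep.ofAlgebraAutOnUnits F L)) 2,
          ∃ m : ℤ, y = m • (map H.subtype
            (𝟙 (Rep.res H.subtype (Rep.ofAlgebraAutOnUnits F L))) 2).hom u

variable {q}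

theorem localFundamental_of (hUnram : LeafUnram q) (hH2Unram : LeafH2Unram q)
    (hH2Le : LeafH2Le q) (hInflInj : LeafInflInj q) (hInfRes : LeafInfRes q)
    (hResInfl : LeafResInflUnram q) : LocalFundamental q :=
  fun F _ _ _ _ _ L _ _ =>
    card_H2_and_cyclic hUnram hH2Unram hH2Le hInflInj hInfRes hResInfl F L

/-- Assembly: the Tate hypotheses from the subgroup form and the fundamental theorem. -/
theorem localTateHyp_of (hSub : LeafSubgroupH2 q) (hFund : LocalFundamental q) :
    LocalTateHyp q := by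
  intro F _ _ _ _ _ L _ _
  classical
  obtain ⟨hcyc, hcard⟩ := hFund F L
  haveI := hcyc
  obtain ⟨u, hu⟩ := IsAddCyclic.exists_generator
    (α := groupCohomology.H2 (Rep.ofAlgebraAutOnUnits F L))
  refine ⟨u, fun H => ?_⟩
  obtain ⟨h1, hHcyc, hHcard⟩ := hSub F L H
  refine ⟨h1, hHcard, ?_⟩
  set r := (map H.subtype (𝟙 (Rep.res H.subtype (Rep.ofAlgebraAutOnUnits F L))) 2).hom with hr
  have hn0 : 0 < Module.finrank F L := Module.finrank_pos
  haveI hfinA : Finite (groupCohomology.H2 (Rep.ofAlgebraAutOnUnits F L)) :=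
    Nat.finite_of_card_ne_zero (by rw [hcard]; exact hn0.ne')
  have hH0 : 0 < Nat.card H := Nat.card_pos
  haveI hfinH : Finite (groupCohomology (Rep.res H.subtype (Rep.ofAlgebraAutOnUnits F L)) 2) :=
    Nat.finite_of_card_ne_zero (by rw [hHcard]; exact hH0.ne')
  -- the order of `u`
  have hou : addOrderOf u = Module.finrank F L := by
    rw [← hcard]
    exact addOrderOf_eq_card_of_forall_mem_zmultiples hu
  have hGcard : Nat.card (L ≃ₐ[F] L) = Module.finrank F L := IsGalois.card_aut_eq_finrank F L
  have hidx : H.index * Nat.card H = Module.finrank F L := by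
    rw [← hGcard, mul_comm]
    exact Subgroup.card_mul_index H
  -- the order of `r u` is `#H`
  have hdvd : Nat.card H ∣ addOrderOf (r u) := by
    have h0 : r (addOrderOf (r u) • u) = 0 := by
      rw [map_nsmul]
      exact addOrderOf_nsmul_eq_zero (r u)
    have h2 := H80.index_smul_eq_zero_of_res_eq_zero (Rep.ofAlgebraAutOnUnits F L) H 2
      (Or.inr rfl) (addOrderOf (r u) • u) h0
    rw [← mul_smul] at h2
    have h3 : addOrderOf u ∣ H.index * addOrderOf (r u) := addOrderOf_dvd_of_nsmul_eq_zero h2
    rw [hou, ← hidx] at h3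
    have hidx0 : 0 < H.index := by
      rcases Nat.eq_zero_or_pos H.index with h | h
      · rw [h, zero_mul] at hidx; omega
      · exact h
    exact Nat.dvd_of_mul_dvd_mul_left hidx0 h3
  have hle : addOrderOf (r u) ∣ Nat.card H := by
    rw [← hHcard]
    exact addOrderOf_dvd_natCard (r u)
  have hord : addOrderOf (r u) =
      Nat.card (groupCohomology (Rep.res H.subtype (Rep.ofAlgebraAutOnUnits F L)) 2) := by
    rw [hHcard]
    exact Nat.dvd_antisymm hle hdvd
  have htop : AddSubgroup.zmultiples (r u) = ⊤ := by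
    apply AddSubgroup.eq_top_of_card_eq
    rw [Nat.card_zmultiples, hord]
  intro y
  have hy : y ∈ AddSubgroup.zmultiples (r u) := by rw [htop]; trivial
  obtain ⟨m, hm⟩ := AddSubgroup.mem_zmultiples_iff.1 hy
  exact ⟨m, hm.symm⟩

end Fermat.Agent.S55.H66
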