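/-
Program C (S55), package C3: END-TO-END ASSEMBLY of the local package.

`OpenLeaves q` collects the C3 leaves that are not yet on main in unconditional form;
`C3Package q` collects every export of C3 (all leaves of `LocalSpec`, `InvSpec`, `TateSpec` and
the assembled theorems).  `c3Package_of : OpenLeaves q → C3Package q` is proved from the leaf
theorems landed on main by the C3 provers (helper9, helper13, helper24, helper31, helper35,
helper37, helper39, helper40, helper53, helper63, helper80, helper93, helper98) and the assemblies of
`LocalSpec`, `InvAsm`, `TateSpec`.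
-/
import Fermat.Agent.S55.H66.InvAsm
import Fermat.Agent.S55.H66.TateSpec
import Fermat.Agent.S55.H66.LocalBridge
import Fermat.Agent.S55.H31.UnitNorm
import Fermat.Agent.S55.H53.KummerUnram
import Fermat.Agent.S55.H93.InfResLocal
import Fermat.Agent.S55.H37.CycClass
import Fermat.Agent.S55.H80.CycInf
import Fermat.Agent.S55.H35.H2Unram
import Fermat.Agent.S55.H39.FundId
import Fermat.Agent.S55.H24.Inv
import Fermat.Agent.S55.H9.ResInflUnram
import Fermat.Agent.S55.H40.H2Le
import Fermat.Agent.S55.H98.LeafNormIndex
import Fermat.Agent.S55.H13.PowIndexLeaf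
import Fermat.Agent.S55.H63.Frob
import Fermat.Agent.S55.H53.UnramUnique

set_option autoImplicit false

namespace Fermat.Agent.S55.H66

variable (q : ℕ) [Fact q.Prime]

/-- The C3 leaves not yet available unconditionally. -/
structure OpenLeaves : Prop where
  unram : LeafUnram q
  invRes : LeafInvRes q
  subgroupH2 : LeafSubgroupH2 q

/-- Every export of package C3. -/
structure C3Package : Prop where
  unif : LeafUnif q
  resFinite : LeafResFinite q
  ord : LeafOrd q
  unram : LeafUnram q
  unramUnique : LeafUnramUnique q
  kummerUnram : LeafKummerUnram q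
  unitNorm : LeafUnitNorm q
  unitH90 : LeafUnitH90 q
  normCompositum : LeafNormCompositum q
  normIndex : LeafNormIndex q
  powIndex : LeafPowIndex q
  unitPowIndex : LeafUnitPowIndex q
  h2Unram : LeafH2Unram q
  h2Le : LeafH2Le q
  inflInj : LeafInflInj q
  infRes : LeafInfRes q
  resInflUnram : LeafResInflUnram q
  fundamental : LocalFundamental q
  frob : LeafFrob q
  inv : LeafInv q
  invUnrExists : LeafInvUnrExists q
  invUnr : LeafInvUnr q
  invInfl : LeafInvInfl q
  invRes : LeafInvRes q
  subgroupH2 : LeafSubgroupH2 q
  tate : LocalTateHyp q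

variable {q}

/-- Step A of the construction of `inv` (helper24's `exists_isInvUnr`) in the shape of
`LeafInvUnrExists`. -/
theorem leafInvUnrExists_of (hUnram : LeafUnram q) (hFrob : LeafFrob q)
    (hH2Unram : LeafH2Unram q) : LeafInvUnrExists q := by
  intro F _ _ _ _ _ n _ hn
  obtain ⟨g, hg, hinj, -⟩ := H24.exists_isInvUnr (q := q) hUnram hFrob (leafOrd q) hH2Unram
    H37.leafCycSurj H37.leafCycZero H37.leafCycAdd F n hn
  exact ⟨g, hg, hinj⟩

/-- THE ASSEMBLY of package C3. -/
theorem c3Package_of (h : OpenLeaves q) : C3Package q := by
  have hUnif : LeafUnif q := leafUnif q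
  have hResFin : LeafResFinite q := leafResFinite q
  have hOrd : LeafOrd q := leafOrd q
  have hUU : LeafUnramUnique q := H53.leafUnramUnique_of (q := q) h.unram
  have hFrob : LeafFrob q := H63.leafFrob q
  have hUnitNorm : LeafUnitNorm q := H31.leafUnitNorm (q := q) h.unram hUU hResFin
  have hNC : LeafNormCompositum q := H39.leafNormCompositum (q := q) hUnif h.unram hUnitNorm
  have hNI : LeafNormIndex q := H98.leafNormIndex q
  have hH2Unram : LeafH2Unram q := H35.leafH2Unram (q := q) hUnif h.unram hUnitNorm
  have hH2Le : LeafH2Le q := H40.leafH2Le (q := q) hNI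
  have hInflInj : LeafInflInj q := H93.leafInflInj q
  have hInfRes : LeafInfRes q := H93.leafInfRes q
  have hResInfl : LeafResInflUnram q :=
    H9.leafResInflUnram q h.unram hNC H37.leafCycSurj H80.leafCycRes H37.leafCycZero
  have hFund : LocalFundamental q :=
    localFundamental_of h.unram hH2Unram hH2Le hInflInj hInfRes hResInfl
  have hInv : LeafInv q :=
    H24.leafInv (q := q) h.unram hFrob hOrd hH2Unram hH2Le hInflInj hInfRes hResInfl
      H37.leafCycSurj H37.leafCycZero H37.leafCycAdd H80.leafCycInf
  have hEx : LeafInvUnrExists q := leafInvUnrExists_of h.unram hFrob hH2Unram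
  exact
    { unif := hUnif
      resFinite := hResFin
      ord := hOrd
      unram := h.unram
      unramUnique := hUU
      kummerUnram := H53.leafKummerUnram (q := q)
      unitNorm := hUnitNorm
      unitH90 := H31.leafUnitH90 (q := q)
      normCompositum := hNC
      normIndex := hNI
      powIndex := H13.leafPowIndex q
      unitPowIndex := H13.leafUnitPowIndex q
      h2Unram := hH2Unram
      h2Le := hH2Le
      inflInj := hInflInj
      infRes := hInfRes
      resInflUnram := hResInfl
      fundamental := hFund
      frob := hFrob
      inv := hInv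
      invUnrExists := hEx
      invUnr := leafInvUnr_of hInv hEx hUU
      invInfl := leafInvInfl_of hInv hEx h.unram hH2Unram hH2Le hInflInj hInfRes hResInfl
      invRes := h.invRes
      subgroupH2 := h.subgroupH2
      tate := localTateHyp_of h.subgroupH2 hFund }

end Fermat.Agent.S55.H66
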