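/-
Program C (S55), package C3: UNCONDITIONAL exports.

`LeafUnram` is on main (helper28), so every export of C3 except the two still-open leaves
(`LeafInvRes`, `LeafSubgroupH2`) and `LocalTateHyp` (which consumes `LeafSubgroupH2`) is now a
theorem without hypotheses.  Consumers can use the individual theorems `c3_*` below, or
`c3Package_of'` for the whole package.
-/
import Fermat.Agent.S55.H66.C3Asm
import Fermat.Agent.S55.H28.Unram

set_option autoImplicit false

namespace Fermat.Agent.S55.H66

variable (q : ℕ) [Fact q.Prime]

/-- The whole package from the two leaves still open. -/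
theorem c3Package_of' (hInvRes : LeafInvRes q) (hSub : LeafSubgroupH2 q) : C3Package q :=
  c3Package_of ⟨H28.leafUnram q, hInvRes, hSub⟩

/-- L2a: the unramified extensions `unramExt q F n`. -/
theorem c3_unram : LeafUnram q := H28.leafUnram q

/-- L2b: uniqueness of the unramified extension of given degree. -/
theorem c3_unramUnique : LeafUnramUnique q := H53.leafUnramUnique_of (q := q) (c3_unram q)

/-- V2: the Frobenius. -/
theorem c3_frob : LeafFrob q := H63.leafFrob q

/-- L3a: units are norms from unramified extensions. -/
theorem c3_unitNorm : LeafUnitNorm q :=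
  H31.leafUnitNorm (q := q) (c3_unram q) (c3_unramUnique q) (leafResFinite q)

/-- L3c: norms from a compositum with an unramified extension. -/
theorem c3_normCompositum : LeafNormCompositum q :=
  H39.leafNormCompositum (q := q) (leafUnif q) (c3_unram q) (c3_unitNorm q)

/-- L4: the local norm index of a cyclic extension. -/
theorem c3_normIndex : LeafNormIndex q := H98.leafNormIndex q

/-- L6a: `#H²` of an unramified extension. -/
theorem c3_h2Unram : LeafH2Unram q :=
  H35.leafH2Unram (q := q) (leafUnif q) (c3_unram q) (c3_unitNorm q)

/-- L6b: `#H² ≤ [L:F]`. -/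
theorem c3_h2Le : LeafH2Le q := H40.leafH2Le (q := q) (c3_normIndex q)

/-- L6c: inflation is injective on `H²`. -/
theorem c3_inflInj : LeafInflInj q := H93.leafInflInj q

/-- L6d: inflation-restriction exactness on `H²`. -/
theorem c3_infRes : LeafInfRes q := H93.leafInfRes q

/-- L7: restriction kills inflated unramified classes. -/
theorem c3_resInflUnram : LeafResInflUnram q :=
  H9.leafResInflUnram q (c3_unram q) (c3_normCompositum q) H37.leafCycSurj H80.leafCycRes
    H37.leafCycZero

/-- THE LOCAL FUNDAMENTAL THEOREM: `H²(Gal(L/F), Lˣ)` is cyclic of order `[L:F]`. -/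
theorem c3_fundamental : LocalFundamental q :=
  localFundamental_of (c3_unram q) (c3_h2Unram q) (c3_h2Le q) (c3_inflInj q) (c3_infRes q)
    (c3_resInflUnram q)

/-- V3: the invariant satisfies its specification, is injective, with image the
`[L:F]`-torsion. -/
theorem c3_inv : LeafInv q :=
  H24.leafInv (q := q) (c3_unram q) (c3_frob q) (leafOrd q) (c3_h2Unram q) (c3_h2Le q)
    (c3_inflInj q) (c3_infRes q) (c3_resInflUnram q)
    H37.leafCycSurj H37.leafCycZero H37.leafCycAdd H80.leafCycInf

/-- The unramified invariant exists. -/
theorem c3_invUnrExists : LeafInvUnrExists q :=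
  leafInvUnrExists_of (c3_unram q) (c3_frob q) (c3_h2Unram q)

/-- V4: the unramified formula. -/
theorem c3_invUnr : LeafInvUnr q :=
  leafInvUnr_of (c3_inv q) (c3_invUnrExists q) (c3_unramUnique q)

/-- V5: `inv` is compatible with inflation. -/
theorem c3_invInfl : LeafInvInfl q :=
  leafInvInfl_of (c3_inv q) (c3_invUnrExists q) (c3_unram q) (c3_h2Unram q) (c3_h2Le q)
    (c3_inflInj q) (c3_infRes q) (c3_resInflUnram q)

/-- `LocalTateHyp` from the one open leaf it needs. -/
theorem c3_tate_of (hSub : LeafSubgroupH2 q) : LocalTateHyp q :=
  localTateHyp_of hSub (c3_fundamental q)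

end Fermat.Agent.S55.H66
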