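/-
Program C (S55), package C3: the leaf `LeafSubgroupH2` (subgroup form of the local fundamental
theorem) from `LocalFundamental`.

For `L ≤ E` (no normality of `L/F`), `Gal(E/L) ≃* (upHom h).range ≤ Gal(E/F)` and
`Hⁿ(Gal(E/L), Eˣ) ≅ Hⁿ((upHom h).range, Eˣ)` (`fixIso`).  For a subgroup `H ≤ Gal(E/F)` and
`L :=` the fixed field of `H` (lifted to `Ω`), `(upHom h).range = H`.
-/
import Fermat.Agent.S55.H66.TateSpec
import Fermat.Agent.S55.H93.GalTransport
import Fermat.Agent.S55.H9.ResInflUnram
import Fermat.Agent.S55.H15.Hilbert90Sub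

set_option autoImplicit false

noncomputable section

namespace Fermat.Agent.S55.H66

open IntermediateField CategoryTheory groupCohomology Rep

variable {q : ℕ} [Fact q.Prime]

section Fix

variable {F : Type} [Field F] [Algebra F (PadicAlgCl q)]
variable {L E : IntermediateField F (PadicAlgCl q)} (h : L ≤ E)

theorem upHom_injective : Function.Injective (upHom h) := by
  intro σ τ hστ
  ext y
  have h2 := congrArg (fun ρ : E ≃ₐ[F] E => ((ρ (upEquiv h y) : E) : PadicAlgCl q)) hστ
  simp only [H93.upHom_apply_upEquiv, upEquiv_apply_coe] at h2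
  exact h2

theorem upHom_fixes (σ : (extendScalars h) ≃ₐ[L] (extendScalars h)) (x : L) :
    upHom h σ (inclusion h x) = inclusion h x := by
  apply Subtype.ext
  rw [upHom_apply_coe, H93.upEquiv_symm_inclusion, AlgEquiv.commutes]
  rfl

theorem mem_range_upHom_iff (s : E ≃ₐ[F] E) :
    s ∈ (upHom h).range ↔ ∀ x : L, s (inclusion h x) = inclusion h x := by
  constructor
  · rintro ⟨σ, rfl⟩ x
    exact upHom_fixes h σ x
  · intro hs'
    let r : (extendScalars h) ≃+* (extendScalars h) :=
      ((upEquiv h).toRingEquiv.trans s.toRingEquiv).trans (upEquiv h).symm.toRingEquiv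
    have hr : ∀ x : L, r (algebraMap L (extendScalars h) x) =
        algebraMap L (extendScalars h) x := by
      intro x
      change (upEquiv h).symm (s (upEquiv h (algebraMap L (extendScalars h) x))) = _
      have h1 : upEquiv h (algebraMap L (extendScalars h) x) = inclusion h x := by
        apply Subtype.ext
        rfl
      rw [h1, hs' x, H93.upEquiv_symm_inclusion]
    refine ⟨AlgEquiv.ofRingEquiv hr, ?_⟩
    ext y
    rw [upHom_apply_coe]
    change ((upEquiv h).symm (s (upEquiv h ((upEquiv h).symm y))) : PadicAlgCl q) = _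
    rw [upEquiv_symm_apply_coe, AlgEquiv.apply_symm_apply]

/-- `Gal(E/L) ≃* (upHom h).range`. -/
def fixEquiv : ((extendScalars h) ≃ₐ[L] (extendScalars h)) ≃* (upHom h).range :=
  MonoidHom.ofInjective (upHom_injective h)

theorem fixEquiv_coe (σ : (extendScalars h) ≃ₐ[L] (extendScalars h)) :
    ((fixEquiv h σ : (upHom h).range) : E ≃ₐ[F] E) = upHom h σ := rfl

theorem unitsDown_comm' (g : (extendScalars h) ≃ₐ[L] (extendScalars h)) :
    (H93.unitsDown h).toLinearMap ∘ₗ (Rep.ofAlgebraAutOnUnits L (extendScalars h)).ρ g =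
      (res (upHom h).range.subtype (Rep.ofAlgebraAutOnUnits F E)).ρ (fixEquiv h g) ∘ₗ
        (H93.unitsDown h).toLinearMap := by
  apply LinearMap.ext
  intro y
  apply Additive.toMul.injective
  apply Units.ext
  exact (H93.upHom_apply_upEquiv h g _).symm

/-- `Hⁿ(Gal(E/L), Eˣ) ≅ Hⁿ(S, Eˣ)`, `S = (upHom h).range` the subgroup of `Gal(E/F)` fixing
`L`. -/
def fixIso (n : ℕ) :
    groupCohomology (Rep.ofAlgebraAutOnUnits L (extendScalars h)) n ≅
      groupCohomology (res (upHom h).range.subtype (Rep.ofAlgebraAutOnUnits F E)) n :=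
  mapIso (fixEquiv h) (H93.unitsDown h) (unitsDown_comm' h) n

end Fix

section Leaf

variable {F : Type} [Field F] [Algebra ℚ_[q] F] [Algebra F (PadicAlgCl q)]
  [IsScalarTower ℚ_[q] F (PadicAlgCl q)] [FiniteDimensional ℚ_[q] F]

/-- The fundamental theorem for `E/L`, on the subgroup of `Gal(E/F)` fixing `L`. -/
theorem fundamental_range (hFund : LocalFundamental q)
    {L E : IntermediateField F (PadicAlgCl q)} [FiniteDimensional F E] [IsGalois F E]
    (h : L ≤ E) :
    IsAddCyclic (groupCohomology
        (res (upHom h).range.subtype (Rep.ofAlgebraAutOnUnits F E)) 2) ∧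
      Nat.card (groupCohomology
        (res (upHom h).range.subtype (Rep.ofAlgebraAutOnUnits F E)) 2) =
        Nat.card (upHom h).range := by
  haveI : FiniteDimensional F L :=
    Module.Finite.of_injective (inclusion h).toLinearMap (inclusion_injective h)
  haveI : FiniteDimensional L (extendScalars h) := H9.finiteDimensional_ext h
  haveI : IsGalois L (extendScalars h) := H9.isGalois_ext h
  obtain ⟨hcyc, hcard⟩ := hFund L (extendScalars h)
  let e : groupCohomology (Rep.ofAlgebraAutOnUnits L (extendScalars h)) 2 ≃ₗ[ℤ]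
      groupCohomology (res (upHom h).range.subtype (Rep.ofAlgebraAutOnUnits F E)) 2 :=
    (fixIso h 2).toLinearEquiv
  constructor
  · haveI := hcyc
    exact isAddCyclic_of_surjective e.toAddMonoidHom e.surjective
  · rw [← Nat.card_congr e.toEquiv]
    change Nat.card (H2 (Rep.ofAlgebraAutOnUnits L (extendScalars h))) = _
    rw [hcard, ← Nat.card_congr (fixEquiv h).toEquiv]
    exact (IsGalois.card_aut_eq_finrank L (extendScalars h)).symm

/-- For a subgroup `H ≤ Gal(E/F)`: the subgroup fixing the (lift of the) fixed field of `H`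
is `H`. -/
theorem range_upHom_fixedField {E : IntermediateField F (PadicAlgCl q)}
    [FiniteDimensional F E] (H : Subgroup (E ≃ₐ[F] E)) :
    (upHom (lift_le (fixedField H))).range = H := by
  ext s
  rw [mem_range_upHom_iff]
  constructor
  · intro hs
    rw [← fixingSubgroup_fixedField H, IntermediateField.mem_fixingSubgroup_iff]
    intro x hx
    have hx' : (x : PadicAlgCl q) ∈ lift (fixedField H) := (mem_lift x).2 hx
    have := hs ⟨(x : PadicAlgCl q), hx'⟩
    exact this
  · intro hs x
    have hx : inclusion (lift_le (fixedField H)) x ∈ fixedField H :=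
      (mem_lift _).1 x.2
    exact hx ⟨s, hs⟩

/-- **Leaf `LeafSubgroupH2`** from the local fundamental theorem. -/
theorem leafSubgroupH2_of (hFund : LocalFundamental q) : LeafSubgroupH2 q := by
  intro F _ _ _ _ _ E _ _ H
  refine ⟨?_, ?_⟩
  · exact ModuleCat.subsingleton_of_isZero (H15.isZero_H1_res_subtype H)
  · have key := fundamental_range hFund (lift_le (fixedField H))
    rw [range_upHom_fixedField H] at key
    exact key

end Leaf

end Fermat.Agent.S55.H66
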