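/-
Program C (S55), package C3: UNCONDITIONAL `LeafSubgroupH2`, `LocalTateHyp`, and the hypotheses
of Tate's theorem in the shape consumed by C1 (TATE-3, `IsZero` form).
-/
import Fermat.Agent.S55.H66.C3Main
import Fermat.Agent.S55.H66.SubgroupH2

set_option autoImplicit false

namespace Fermat.Agent.S55.H66

open IntermediateField CategoryTheory groupCohomology

variable (q : ℕ) [Fact q.Prime]

/-- Subgroup form of the local fundamental theorem. -/
theorem c3_subgroupH2 : LeafSubgroupH2 q := leafSubgroupH2_of (c3_fundamental q)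

/-- The hypotheses of Tate's theorem for `Lˣ`. -/
theorem c3_tate : LocalTateHyp q := c3_tate_of q (c3_subgroupH2 q)

/-- The whole package from the one leaf still open. -/
theorem c3Package_of'' (hInvRes : LeafInvRes q) : C3Package q :=
  c3Package_of' q hInvRes (c3_subgroupH2 q)

/-- The hypotheses of Tate's theorem for `A = Lˣ`, `G = Gal(L/F)`, in the shape of TATE-3:
a class `u ∈ H²(G, A)` such that for every subgroup `H`: `H¹(H, A) = 0`, `#H²(H, A) = #H` and
`H²(H, A)` is generated by the restriction of `u`. -/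
theorem c3_tate_isZero (F : Type) [Field F] [Algebra ℚ_[q] F] [Algebra F (PadicAlgCl q)]
    [IsScalarTower ℚ_[q] F (PadicAlgCl q)] [FiniteDimensional ℚ_[q] F]
    (L : IntermediateField F (PadicAlgCl q)) [FiniteDimensional F L] [IsGalois F L] :
    ∃ u : groupCohomology (Rep.ofAlgebraAutOnUnits F L) 2,
      (∀ H : Subgroup (L ≃ₐ[F] L), Limits.IsZero
        (groupCohomology (Rep.res H.subtype (Rep.ofAlgebraAutOnUnits F L)) 1)) ∧
      (∀ H : Subgroup (L ≃ₐ[F] L),
        Nat.card (groupCohomology (Rep.res H.subtype (Rep.ofAlgebraAutOnUnits F L)) 2) =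
          Nat.card H) ∧
      ∀ (H : Subgroup (L ≃ₐ[F] L))
        (y : groupCohomology (Rep.res H.subtype (Rep.ofAlgebraAutOnUnits F L)) 2),
        ∃ m : ℤ, y = m • (map H.subtype
          (𝟙 (Rep.res H.subtype (Rep.ofAlgebraAutOnUnits F L))) 2).hom u := by
  obtain ⟨u, hu⟩ := c3_tate q F L
  refine ⟨u, fun H => ?_, fun H => (hu H).2.1, fun H => (hu H).2.2⟩
  haveI := (hu H).1
  exact ModuleCat.isZero_of_subsingleton _

end Fermat.Agent.S55.H66
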