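/-
Program C (S55), sub-package LOC of C9b (designer helper66): the bridge between

* the local invariants of the FINITE GLOBAL LAYERS (`H88.linvAt q L τ'` on
  `H²(Gal(K/L), Kˣ)`, from which the invariants on the `G_S`-side are defined by descent), and
* the level-constant cohomology of the LOCAL GROUP `G_q = Gal(Ω/ℚ_q)` mapping to `Gal(ℚ̄/ℚ)`
  (`H26.Dloc q`; the frozen local conditions of `sha₂` and the local invariant `H26.IsLocalInv`).

Vocabulary.  `L ⊆ ℚ̄` a number field, `Γ = L.fixingSubgroup`, `K/L` finite Galois inside `ℚ̄`.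
A 2-cocycle `c` of `Gal(K/L)` in `Kˣ` REALISES `f : Γ × Γ → 𝔽_p` (w.r.t. `ζ ∈ μ_p(K)`) if
`c (σ₁|K, σ₂|K) = ζ ^ f (σ₁, σ₂)` (`GRealises`; global analogue of `H26.Realises`).
For `g ∈ Gal(ℚ̄/ℚ)`: `embAt g = ι_q ∘ g : K → Ω` (every embedding of `K` is of this form),
`baseAt g = ℚ_q(ι_q g L)`, `extAt g = ℚ_q(ι_q g K)` over `baseAt g` (helper88's `locBase`,
`locExt`), `conjFun g f (h₁, h₂) = f (g⁻¹ r(h₁) g, g⁻¹ r(h₂) g)` on `Gal(Ω/baseAt g)`
(`r = localGaloisToGlobal q`).
-/
import Fermat.Agent.S55.H88.LayerDefs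
import Fermat.Agent.S55.H26.LocalInvPlan

set_option autoImplicit false

open CategoryTheory

noncomputable section

namespace Fermat.Agent.S55.H66

open Fermat.Agent.S55.H49 Fermat.Agent.S55.H26

local notation "Qb" => AlgebraicClosure ℚ

section Defs

variable (p : ℕ) [Fact p.Prime]
variable (L : IntermediateField ℚ Qb) (K : IntermediateField L Qb)

/-- Restriction `Gal(ℚ̄/L) → Gal(K/L)`. -/
def gRes [Normal L K] : L.fixingSubgroup →* (K ≃ₐ[L] K) :=
  (AlgEquiv.restrictNormalHom K).comp (IntermediateField.fixingSubgroupEquiv L).toMonoidHom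

variable {L K} in
/-- `ζ ^ a` as an element of the Galois module `Kˣ`. -/
def gZetaPow (ζ : Kˣ) (a : ZMod p) : Rep.ofAlgebraAutOnUnits L K :=
  Rep.toAdditive.symm (Additive.ofMul (ζ ^ a.val))

/-- The unit-valued 2-cocycle `c` of `Gal(K/L)` REALISES the function `f` on
`Gal(ℚ̄/L) × Gal(ℚ̄/L)`: `c (σ₁|K, σ₂|K) = ζ ^ f (σ₁, σ₂)`. -/
def GRealises [Normal L K] (ζ : Kˣ) (f : L.fixingSubgroup × L.fixingSubgroup → ZMod p)
    (c : groupCohomology.cocycles₂ (Rep.ofAlgebraAutOnUnits L K)) : Prop :=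
  ∀ σ₁ σ₂ : L.fixingSubgroup, c.1 (gRes L K σ₁, gRes L K σ₂) = gZetaPow p ζ (f (σ₁, σ₂))

variable (q : ℕ) [Fact q.Prime]

/-- The embedding `x ↦ ι_q (g x)` of `K` into `Ω = PadicAlgCl q`. -/
def embAt (g : GQ) : K →+* PadicAlgCl q :=
  ((padicEmbedding q).comp (g : Qb →ₐ[ℚ] Qb)).toRingHom.comp (algebraMap K Qb)

@[simp] theorem embAt_apply (g : GQ) (x : K) :
    embAt L K q g x = padicEmbedding q (g (x : Qb)) := rfl

/-- The completion of `L` at the place `ι_q ∘ g`. -/
abbrev baseAt (g : GQ) : IntermediateField ℚ_[q] (PadicAlgCl q) :=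
  H88.locBase q L (embAt L K q g)

/-- The completion of `K` at `ι_q ∘ g`, over `baseAt g`. -/
abbrev extAt (g : GQ) : IntermediateField (baseAt L K q g) (PadicAlgCl q) :=
  H88.locExt q L (embAt L K q g)

theorem conj_mem_fixingSubgroup (g : GQ) (h : GalQ q)
    (hh : h ∈ (baseAt L K q g).fixingSubgroup) :
    g⁻¹ * localGaloisToGlobal q h * g ∈ L.fixingSubgroup := by
  rw [IntermediateField.mem_fixingSubgroup_iff]
  intro x hx
  have h1 : localGaloisToGlobal q h (g x) = g x := by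
    apply (padicEmbedding q).toRingHom.injective
    show padicEmbedding q (localGaloisToGlobal q h (g x)) = padicEmbedding q (g x)
    rw [padicEmbedding_localGaloisToGlobal]
    have hmem : padicEmbedding q (g x) ∈ baseAt L K q g :=
      IntermediateField.subset_adjoin _ _ ⟨⟨x, hx⟩, rfl⟩
    exact (IntermediateField.mem_fixingSubgroup_iff _ _).1 hh _ hmem
  show g⁻¹ (localGaloisToGlobal q h (g x)) = x
  rw [h1]
  exact g.symm_apply_apply x

/-- `h ↦ g⁻¹ r(h) g`, `Gal(Ω/baseAt g) → Gal(ℚ̄/L)`. -/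
def conjLoc (g : GQ) (h : (baseAt L K q g).fixingSubgroup) : L.fixingSubgroup :=
  ⟨g⁻¹ * localGaloisToGlobal q (h : GalQ q) * g, conj_mem_fixingSubgroup L K q g h h.2⟩

/-- `f` transported to the local group at `g`. -/
def conjFun (g : GQ) (f : L.fixingSubgroup × L.fixingSubgroup → ZMod p) :
    (baseAt L K q g).fixingSubgroup × (baseAt L K q g).fixingSubgroup → ZMod p :=
  fun h => f (conjLoc L K q g h.1, conjLoc L K q g h.2)

/-- The coefficient at the coset `g Γ` of the restriction to the local group of a level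
2-cocycle `z` of `Gal(ℚ̄/ℚ)` with values in `𝔽_p[Gal(ℚ̄/ℚ) ⧸ Γ]`. -/
def locCoeff (S : Finset Nat.Primes) (g : GQ)
    (z : cyc (lcComplex (globalDatum S) (permRep (ZMod p) L.fixingSubgroup)) 2) :
    (baseAt L K q g).fixingSubgroup × (baseAt L K q g).fixingSubgroup → ZMod p :=
  fun h => permCoeff L.fixingSubgroup
    (lcVal z ![localGaloisToGlobal q (h.1 : GalQ q), localGaloisToGlobal q (h.2 : GalQ q)])
    ((g : GQ) : GQ ⧸ L.fixingSubgroup)

end Defs

/-! ### Leaves -/

section Leaves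

variable (p : ℕ) [Fact p.Prime] (q : ℕ) [Fact q.Prime]

/-- **Leaf (LOC-A)**: localisation of a realised class is realised.
If `c` realises `f` (w.r.t. `ζ`), then for every `g` the localisation at `ι_q ∘ g` of the class
of `c` (helper88's `locH2At`) has a cocycle representative `c'` realising `conjFun g f` w.r.t.
the root of unity `ι_q (g ζ)`.
Proof: `c' :=` the image of `c` under `(locGalToGlobal, globalToLocUnits)`;
`c' (α, β) = τ' (c (σ_α, σ_β))`, and for `α = h|extAt` one has `σ_α = (g⁻¹ r(h) g)|K`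
(`locGalToGlobal_spec` + `padicEmbedding_localGaloisToGlobal` + injectivity of `τ'`). -/
def LocRealiseStatement : Prop :=
  ∀ (L : IntermediateField ℚ Qb) (K : IntermediateField L Qb) [FiniteDimensional L K]
    [IsGalois L K] (ζ : Kˣ) (f : L.fixingSubgroup × L.fixingSubgroup → ZMod p)
    (c : groupCohomology.cocycles₂ (Rep.ofAlgebraAutOnUnits L K)),
    GRealises p L K ζ f c → ∀ g : GQ,
      ∃ c' : groupCohomology.cocycles₂
          (Rep.ofAlgebraAutOnUnits (baseAt L K q g) (extAt L K q g)),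
        groupCohomology.H2π _ c' =
          H88.locH2At q L (embAt L K q g) (groupCohomology.H2π _ c) ∧
        Realises p q (baseAt L K q g) (extAt L K q g)
          (Units.map (H88.locExtEmb q L (embAt L K q g) : K →* extAt L K q g) ζ)
          (conjFun p L K q g f) c'

/-- **Leaf (LOC-B)**: conjugation.  For a level 2-cocycle `z` of `Gal(ℚ̄/ℚ)` in
`𝔽_p[Gal(ℚ̄/ℚ) ⧸ Γ]` and `g ∈ Gal(ℚ̄/ℚ)`, the two functions on `Gal(Ω/baseAt g)²`
`A (h₁, h₂) = coeff_Γ z (g⁻¹ r(h₁) g, g⁻¹ r(h₂) g)` (the Shapiro restriction of `z`, transported)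
and `B (h₁, h₂) = coeff_{gΓ} z (r h₁, r h₂)` differ by the coboundary of a level function.
Proof: `κ a := z (g, g⁻¹ a g) - z (a, g)` satisfies `g • z (g⁻¹ a g, g⁻¹ b g) - z (a, b) = (dκ)(a, b)`
(three instances of the cocycle identity: at `(a, b, g)`, `(a, g, g⁻¹ b g)`,
`(g, g⁻¹ a g, g⁻¹ b g)`); take the coefficient at `gΓ` (fixed by `r h`, `h ∈ Gal(Ω/baseAt g)`);
`w h := coeff_{gΓ} (κ (r h))`; level-constancy from that of `z` (normal level). -/
def ConjShapiroStatement (S : Finset Nat.Primes) : Prop :=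
  ∀ (L : IntermediateField ℚ Qb) (K : IntermediateField L Qb)
    (z : cyc (lcComplex (globalDatum S) (permRep (ZMod p) L.fixingSubgroup)) 2) (g : GQ),
    ∃ w : (baseAt L K q g).fixingSubgroup → ZMod p,
      IsLevelFun₁ (Dloc q) (baseAt L K q g).fixingSubgroup w ∧
      ∀ h₁ h₂ : (baseAt L K q g).fixingSubgroup,
        conjFun p L K q g (shapiroRes (globalDatum S) L.fixingSubgroup z) (h₁, h₂) -
          locCoeff p L K q S g z (h₁, h₂) = w h₂ - w (h₁ * h₂) + w h₁

/-- **Leaf (LOC-C)**: realising cohomologous functions.  If `c` realises `f` at the finite level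
`L'/E` and `f - f' = dw` with `w` a level function on `Gal(Ω/E)` (`ζ ∈ E`), then over a larger
finite Galois `L''/E` the inflation of `[c]` is the class of a cocycle realising `f'`.
Proof: `L'' ⊇ L'` Galois over `E` containing `ι_q F'` (`F'` a level of `w`); `w` factors through
`Gal(L''/E)`; `c'' := infl c - d (ζ ^ w)`. -/
def CohRealiseStatement : Prop :=
  ∀ (E : IntermediateField ℚ_[q] (PadicAlgCl q)) [FiniteDimensional ℚ_[q] E]
    (L' : IntermediateField E (PadicAlgCl q)) [FiniteDimensional E L'] [IsGalois E L']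
    (ζ' : L'ˣ), ζ' ^ p = 1 → ((ζ' : L') : PadicAlgCl q) ∈ E →
    ∀ (f f' : E.fixingSubgroup × E.fixingSubgroup → ZMod p)
      (c : groupCohomology.cocycles₂ (Rep.ofAlgebraAutOnUnits E L')),
      Realises p q E L' ζ' f c →
      ∀ w : E.fixingSubgroup → ZMod p, IsLevelFun₁ (Dloc q) E.fixingSubgroup w →
      (∀ h₁ h₂ : E.fixingSubgroup, f (h₁, h₂) - f' (h₁, h₂) = w h₂ - w (h₁ * h₂) + w h₁) →
      ∃ (L'' : IntermediateField E (PadicAlgCl q)) (_ : FiniteDimensional E L'')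
        (_ : IsGalois E L'') (hle : L' ≤ L'') (ζ'' : L''ˣ)
        (c'' : groupCohomology.cocycles₂ (Rep.ofAlgebraAutOnUnits E L'')),
        ((ζ'' : L'') : PadicAlgCl q) = ((ζ' : L') : PadicAlgCl q) ∧
        Realises p q E L'' ζ'' f' c'' ∧
        groupCohomology.H2π _ c'' = (inflH2 hle).hom (groupCohomology.H2π _ c)

/-- **Leaf (LOC-D)**: the orbit decomposition of `𝔽_p[Gal(ℚ̄/ℚ) ⧸ Γ]` restricted to the local
group.  `R` = representatives of the orbits of `G_q` on `Gal(ℚ̄/ℚ) ⧸ Γ` (the places of `L` above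
`q`); the stabiliser of `gΓ` is `Gal(Ω/baseAt g)`; for `g ∈ R` the projection
`π_g : res 𝔽_p[G ⧸ Γ] ⟶ 𝔽_p[G_q ⧸ Gal(Ω/baseAt g)]`, `δ_{r(h) g Γ} ↦ δ_h`, `0` on the other
orbits; `zg g := π_g ∘ z ∘ r`; and `m = ∑_{g ∈ R} m(δ_{gΓ}) • (aug_χ ∘ π_g)` for every
`G_q`-morphism `m` to `𝔽_p(χ)`. -/
def OrbitDecompStatement (S : Finset Nat.Primes) : Prop :=
  ∀ (L : IntermediateField ℚ Qb) [FiniteDimensional ℚ L] (K : IntermediateField L Qb)
    (hχ : ∀ g : GQ, ∀ s ∈ (baseAt L K q g).fixingSubgroup, chiLoc p q s = 1)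
    (z : cyc (lcComplex (globalDatum S) (permRep (ZMod p) L.fixingSubgroup)) 2)
    (m : Rep.res (localGaloisToGlobal q) (permRep (ZMod p) L.fixingSubgroup) ⟶
      mu (chiLoc p q)),
    ∃ (R : Finset GQ)
      (zg : ∀ g : GQ,
        cyc (lcComplex (Dloc q) (permRep (ZMod p) (baseAt L K q g).fixingSubgroup)) 2),
      (∀ x : GQ, ∃ g ∈ R, ∃ h : GalQ q, (x : GQ ⧸ L.fixingSubgroup) =
        ((localGaloisToGlobal q h * g : GQ) : GQ ⧸ L.fixingSubgroup)) ∧
      (∀ g ∈ R, ∀ g' ∈ R, (∃ h : GalQ q, (g' : GQ ⧸ L.fixingSubgroup) =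
        ((localGaloisToGlobal q h * g : GQ) : GQ ⧸ L.fixingSubgroup)) → g = g') ∧
      (∀ (g : GQ) (h₁ h₂ : (baseAt L K q g).fixingSubgroup),
        shapiroRes (Dloc q) (baseAt L K q g).fixingSubgroup (zg g) (h₁, h₂) =
          locCoeff p L K q S g z (h₁, h₂)) ∧
      hlcMap (Dloc q) m 2 ((cls _ 2).hom
          (cycMap (lcRes (locHom S (localGaloisToGlobal q))
            (permRep (ZMod p) L.fixingSubgroup)) 2 z)) =
        ∑ g ∈ R, (m.hom (MonoidAlgebra.single ((g : GQ) : GQ ⧸ L.fixingSubgroup) 1) : ZMod p) •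
          hlcMap (Dloc q) (augChar (chiLoc p q) (baseAt L K q g).fixingSubgroup (hχ g)) 2
            ((cls _ 2).hom (zg g))

end Leaves

end Fermat.Agent.S55.H66
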