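/-
Program C (S55), sub-package LOC of C9b (designer helper66): assembly of (LOC-2).

`loc_orb`: for a class `[c] ∈ H²(Gal(K/L), Kˣ)` realising the Shapiro restriction of a level
2-cocycle `z` of `Gal(ℚ̄/ℚ)` in `𝔽_p[Gal(ℚ̄/ℚ) ⧸ Γ]` (`Γ = Gal(ℚ̄/L)`, `ζ ∈ μ_p(L)` primitive),
the layer invariant at the embedding `ι_q ∘ g` is
`χ(g) · inv_q (aug_χ (zg))`, `zg` = the `gΓ`-component of the localisation of `z`, `inv_q` the
local invariant normalised by `ι_q ζ`.  Conditional on the leaves (LOC-A), (LOC-B), (LOC-C) of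
`LocSpec.lean` and on helper26's (CMP) `LocalInvCompStatement`.
-/
import Fermat.Agent.S55.H66.LocSpec
import Fermat.Agent.S55.H66.C3Main

set_option autoImplicit false
set_option linter.style.haveILetI false

open CategoryTheory

noncomputable section

namespace Fermat.Agent.S55.H66

open Fermat.Agent.S55.H49 Fermat.Agent.S55.H26

local notation "Qb" => AlgebraicClosure ℚ

section Aux

/-- Powers of a `p`-th root of unity only depend on the exponent modulo `p`. -/
theorem pow_eq_pow_of_cast_eq (p : ℕ) {R : Type} [Monoid R] {ζ : R} (hζ : ζ ^ p = 1) {m n : ℕ}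
    (h : (m : ZMod p) = (n : ZMod p)) : ζ ^ m = ζ ^ n := by
  have key : ∀ k : ℕ, ζ ^ k = ζ ^ (k % p) := fun k => by
    conv_lhs => rw [← Nat.mod_add_div k p, pow_add, pow_mul, hζ, one_pow, mul_one]
  have h' : m % p = n % p := (ZMod.natCast_eq_natCast_iff' _ _ _).1 h
  rw [key m, key n, h']

/-- `σ z = z ^ χ(σ)` for a `p`-th root of unity `z ∈ ℚ̄`. -/
theorem gq_apply_eq_pow (p : ℕ) [Fact p.Prime] (σ : GQ) {z : Qb} (hz : z ^ p = 1) :
    σ z = z ^ ((ExtCitation.cycloChar p σ : (ZMod p)ˣ) : ZMod p).val := by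
  have : NeZero p := ⟨(Fact.out : p.Prime).ne_zero⟩
  have hz0 : z ≠ 0 := by
    rintro rfl
    rw [zero_pow (NeZero.ne p)] at hz
    exact zero_ne_one hz
  have ht : Units.mk0 z hz0 ∈ rootsOfUnity p Qb := by
    rw [mem_rootsOfUnity]
    ext
    simpa using hz
  exact modularCyclotomicCharacter.spec Qb
    (ExtCitation.card_rootsOfUnity_eq_self p) (σ : Qb ≃+* Qb) ht

theorem lcVal_smul {G : Type} [Group G] {k : Type} [Field k] {D : LevelDatum G} {M : Rep.{0} k G}
    {n : ℕ} (a : k) (z : cyc (lcComplex D M) n) (x : Fin n → G) :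
    lcVal (a • z) x = a • lcVal z x := rfl

theorem permCoeff_smul {G : Type} [Group G] {k : Type} [Field k] (U : Subgroup G) (a : k)
    (v : permRep k U) (x : G ⧸ U) : permCoeff U (a • v) x = a * permCoeff U v x := by
  unfold permCoeff
  rw [map_smul]
  rfl

theorem shapiroRes_smul {G : Type} [Group G] {k : Type} [Field k] (D : LevelDatum G)
    (H : Subgroup G) (a : k) (z : cyc (lcComplex D (permRep k H)) 2) (h : H × H) :
    shapiroRes D H (a • z) h = a * shapiroRes D H z h := by
  unfold shapiroRes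
  rw [lcVal_smul, permCoeff_smul]

variable (q : ℕ) [Fact q.Prime]
variable (L : IntermediateField ℚ Qb) [FiniteDimensional ℚ L] (K : IntermediateField L Qb)

theorem finiteDimensional_baseAt (g : GQ) : FiniteDimensional ℚ_[q] (baseAt L K q g) := by
  haveI : NumberField L := ⟨⟩
  exact H88.finiteDimensional_locField q _

theorem finiteDimensional_extAt [FiniteDimensional L K] (g : GQ) :
    FiniteDimensional (baseAt L K q g) (extAt L K q g) := by
  haveI : FiniteDimensional ℚ K := FiniteDimensional.trans ℚ L K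
  haveI : NumberField K := ⟨⟩
  haveI : FiniteDimensional ℚ_[q] (H88.locField q (embAt L K q g)) :=
    H88.finiteDimensional_locField q _
  exact H9.finiteDimensional_ext (H88.locBase_le q L (embAt L K q g))

omit [FiniteDimensional ℚ L] in
theorem isGalois_extAt [Normal L K] (g : GQ) :
    IsGalois (baseAt L K q g) (extAt L K q g) := by
  haveI : Normal (baseAt L K q g) (extAt L K q g) := H88.normal_locExt q L (embAt L K q g)
  exact ⟨⟩

end Aux

section Orb

variable (p : ℕ) [Fact p.Prime] (q : ℕ) [Fact q.Prime] (S : Finset Nat.Primes)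

variable {p q S}

set_option maxHeartbeats 1600000 in
/-- **LOC-2 at `ι_q ∘ g`** (orbit formula).  Let `c` realise the Shapiro restriction of the
level cocycle `z` (w.r.t. the primitive `p`-th root of unity `ζ ∈ L`), and let `inv` be the local
invariant normalised by `ι_q ζ`.  Then the layer invariant of `[c]` at the embedding `ι_q ∘ g`
is `χ(g) · inv (aug_χ (zg))`, where `zg` is a local level cocycle in
`𝔽_p[G_q ⧸ Gal(Ω/baseAt g)]` whose Shapiro restriction is the coefficient of `z` at `gΓ`. -/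
theorem loc_orb (hA : LocRealiseStatement p q) (hB : ConjShapiroStatement p q S)
    (hC : CohRealiseStatement p q) (hCMP : LocalInvCompStatement p q)
    (L : IntermediateField ℚ Qb) [FiniteDimensional ℚ L] (K : IntermediateField L Qb)
    [FiniteDimensional L K] [IsGalois L K]
    (ζ : Kˣ) (hζ : IsPrimitiveRoot ((ζ : K) : Qb) p) (hζL : ((ζ : K) : Qb) ∈ L)
    (inv : Hlc (Dloc q) (mu (chiLoc p q)) 2 →ₗ[ZMod p] ZMod p)
    (hinv : IsLocalInv p q (padicEmbedding q ((ζ : K) : Qb)) inv)
    (z : cyc (lcComplex (globalDatum S) (permRep (ZMod p) L.fixingSubgroup)) 2)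
    (c : groupCohomology.cocycles₂ (Rep.ofAlgebraAutOnUnits L K))
    (hc : GRealises p L K ζ (shapiroRes (globalDatum S) L.fixingSubgroup z) c) (g : GQ)
    (hχ : ∀ s ∈ (baseAt L K q g).fixingSubgroup, chiLoc p q s = 1)
    (zg : cyc (lcComplex (Dloc q) (permRep (ZMod p) (baseAt L K q g).fixingSubgroup)) 2)
    (hzg : ∀ h₁ h₂ : (baseAt L K q g).fixingSubgroup,
      shapiroRes (Dloc q) (baseAt L K q g).fixingSubgroup zg (h₁, h₂) =
        locCoeff p L K q S g z (h₁, h₂)) :
    H88.linvAt q L (embAt L K q g) (groupCohomology.H2π _ c) =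
      qzOfZMod p (((ExtCitation.cycloChar p g : (ZMod p)ˣ) : ZMod p) *
        inv (hlcMap (Dloc q) (augChar (chiLoc p q) (baseAt L K q g).fixingSubgroup hχ) 2
          ((cls _ 2).hom zg))) := by
  haveI := finiteDimensional_baseAt q L K g
  haveI := finiteDimensional_extAt q L K g
  haveI := isGalois_extAt q L K g
  haveI : NeZero p := ⟨(Fact.out : p.Prime).ne_zero⟩
  obtain ⟨c', hc'1, hc'2⟩ := hA L K ζ _ c hc g
  obtain ⟨w, hw, hAB⟩ := hB L K z g
  -- the unit `χ(g)` and its inverse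
  have huui : (((ExtCitation.cycloChar p g)⁻¹ : (ZMod p)ˣ) : ZMod p) *
      ((ExtCitation.cycloChar p g : (ZMod p)ˣ) : ZMod p) = 1 := by
    rw [← Units.val_mul, inv_mul_cancel, Units.val_one]
  generalize hu : ((ExtCitation.cycloChar p g : (ZMod p)ˣ) : ZMod p) = u at huui ⊢
  generalize hui : (((ExtCitation.cycloChar p g)⁻¹ : (ZMod p)ˣ) : ZMod p) = ui at huui
  have hζQ : (((ζ : K) : Qb)) ^ p = 1 := hζ.pow_eq_one
  have hζp : ζ ^ p = 1 := by
    apply Units.ext
    apply Subtype.ext
    show (((ζ ^ p : Kˣ) : K) : Qb) = 1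
    rw [Units.val_pow_eq_pow_val]
    exact hζQ
  have hgζ : g ((ζ : K) : Qb) = (((ζ : K) : Qb)) ^ u.val := by
    rw [← hu]
    exact gq_apply_eq_pow p g hζQ
  -- the two roots of unity of `extAt g`
  obtain ⟨ζg, hζg⟩ : ∃ ζg : (extAt L K q g)ˣ,
      ζg = Units.map (H88.locExtEmb q L (embAt L K q g) : K →* extAt L K q g) ζ := ⟨_, rfl⟩
  have hζgΩ : (((ζg : (extAt L K q g)ˣ) : extAt L K q g) : PadicAlgCl q) =
      (padicEmbedding q ((ζ : K) : Qb)) ^ u.val := by
    rw [hζg]
    show padicEmbedding q (g ((ζ : K) : Qb)) = _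
    rw [hgζ, map_pow]
  have hζgp : ζg ^ p = 1 := by rw [hζg, ← map_pow, hζp, map_one]
  have hζgE : (((ζg : (extAt L K q g)ˣ) : extAt L K q g) : PadicAlgCl q) ∈ baseAt L K q g := by
    rw [hζg]
    show embAt L K q g (ζ : K) ∈ _
    exact IntermediateField.subset_adjoin _ _ ⟨⟨((ζ : K) : Qb), hζL⟩, rfl⟩
  have hone : ((ui.val * u.val : ℕ) : ZMod p) = ((1 : ℕ) : ZMod p) := by
    push_cast
    rw [ZMod.natCast_zmod_val, ZMod.natCast_zmod_val, huui]
  have hone' : ((u.val * ui.val : ℕ) : ZMod p) = ((1 : ℕ) : ZMod p) := by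
    rw [mul_comm]; exact hone
  have hζqp : (ζg ^ ui.val) ^ p = 1 := by rw [← pow_mul, mul_comm, pow_mul, hζgp, one_pow]
  have hζqΩ : ((((ζg ^ ui.val : (extAt L K q g)ˣ)) : extAt L K q g) : PadicAlgCl q) =
      padicEmbedding q ((ζ : K) : Qb) := by
    have h1 : ((((ζg ^ ui.val : (extAt L K q g)ˣ)) : extAt L K q g) : PadicAlgCl q) =
        (((ζg : (extAt L K q g)ˣ) : extAt L K q g) : PadicAlgCl q) ^ ui.val := by
      rw [Units.val_pow_eq_pow_val]
      rfl
    rw [h1, hζgΩ, ← pow_mul]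
    have hιp : (padicEmbedding q ((ζ : K) : Qb)) ^ p = 1 := by rw [← map_pow, hζQ, map_one]
    conv_rhs => rw [← pow_one (padicEmbedding q ((ζ : K) : Qb))]
    exact pow_eq_pow_of_cast_eq p hιp hone'
  have hζqE : ((((ζg ^ ui.val : (extAt L K q g)ˣ)) : extAt L K q g) : PadicAlgCl q) ∈
      baseAt L K q g := by
    have h1 : ((((ζg ^ ui.val : (extAt L K q g)ˣ)) : extAt L K q g) : PadicAlgCl q) =
        (((ζg : (extAt L K q g)ˣ) : extAt L K q g) : PadicAlgCl q) ^ ui.val := by
      rw [Units.val_pow_eq_pow_val]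
      rfl
    rw [h1]
    exact pow_mem hζgE _
  -- `c'` realises `u • A` w.r.t. `ζg ^ ui`
  have hreal : Realises p q (baseAt L K q g) (extAt L K q g) (ζg ^ ui.val)
      (fun h => u * conjFun p L K q g (shapiroRes (globalDatum S) L.fixingSubgroup z) h) c' := by
    intro h₁ h₂
    have h0 := hc'2 h₁ h₂
    rw [← hζg] at h0
    rw [h0]
    show zetaPow p ζg _ = zetaPow p (ζg ^ ui.val) _
    unfold zetaPow
    congr 2
    rw [← pow_mul]
    apply pow_eq_pow_of_cast_eq p hζgp
    push_cast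
    rw [ZMod.natCast_zmod_val, ZMod.natCast_zmod_val, ZMod.natCast_zmod_val, ← mul_assoc, huui,
      one_mul]
  have hw' : IsLevelFun₁ (Dloc q) (baseAt L K q g).fixingSubgroup (fun h => u * w h) := by
    obtain ⟨F, hF, hwF⟩ := hw
    exact ⟨F, hF, fun h n hn => by show u * w (h * n) = u * w h; rw [hwF h n hn]⟩
  have hd : ∀ h₁ h₂ : (baseAt L K q g).fixingSubgroup,
      (fun h => u * conjFun p L K q g (shapiroRes (globalDatum S) L.fixingSubgroup z) h) (h₁, h₂) -
        shapiroRes (Dloc q) (baseAt L K q g).fixingSubgroup (u • zg) (h₁, h₂) =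
        (fun h => u * w h) h₂ - (fun h => u * w h) (h₁ * h₂) + (fun h => u * w h) h₁ := by
    intro h₁ h₂
    rw [shapiroRes_smul, hzg]
    have h1 := hAB h₁ h₂
    show u * _ - u * _ = u * w h₂ - u * w (h₁ * h₂) + u * w h₁
    linear_combination u * h1
  have step1 := hC (baseAt L K q g) (extAt L K q g) (ζg ^ ui.val) hζqp hζqE
  have step2 := step1
    (fun h => u * conjFun p L K q g (shapiroRes (globalDatum S) L.fixingSubgroup z) h)
    (shapiroRes (Dloc q) (baseAt L K q g).fixingSubgroup (u • zg)) c'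
  have step3 := step2 hreal
  have step4 := step3 (fun h => u * w h) hw'
  have step5 := step4 hd
  obtain ⟨L'', hfin, hgal, hle, ζ'', c'', hζ'', hreal'', hc''⟩ := step5
  haveI := hfin
  haveI := hgal
  have hcorr : CorrE p q (baseAt L K q g) L'' ζ''
      ((cls (lcComplex (Dloc q) (permRep (ZMod p) (baseAt L K q g).fixingSubgroup)) 2).hom
        (u • zg)) (groupCohomology.H2π _ c'') := ⟨u • zg, c'', rfl, rfl, hreal''⟩
  have hprim : IsPrimitiveRoot (padicEmbedding q ((ζ : K) : Qb)) p :=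
    hζ.map_of_injective (padicEmbedding q).toRingHom.injective
  have hcmp1 := hCMP (padicEmbedding q ((ζ : K) : Qb)) hprim inv hinv (baseAt L K q g) hχ L'' ζ''
    (hζ''.trans hζqΩ)
  have hcmp := hcmp1 _ _ hcorr
  rw [hc'', c3_invInfl q (baseAt L K q g) (extAt L K q g) L'' hle, hc'1] at hcmp
  show H66.inv q (extAt L K q g) (H88.locH2At q L (embAt L K q g) (groupCohomology.H2π _ c)) = _
  rw [← hcmp, map_smul]
  have e1 := (hlcMap (Dloc q) (augChar (chiLoc p q) (baseAt L K q g).fixingSubgroup hχ) 2).map_smul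
    u ((cls (lcComplex (Dloc q) (permRep (ZMod p) (baseAt L K q g).fixingSubgroup)) 2).hom zg)
  have e2 := (congrArg inv e1).trans (inv.map_smul u _)
  exact congrArg (qzOfZMod p) e2

end Orb

end Fermat.Agent.S55.H66
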