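/-
Program C (S55), sub-package LOC of C9b (designer helper66): (LOC-2) in MODULE FORM.

`loc_orbit`: for a `G_q`-morphism `m : Res_q 𝔽_p[Gal(ℚ̄/ℚ) ⧸ Γ] ⟶ 𝔽_p(χ)` supported on the
`G_q`-orbit of `g₀Γ` (a place of `L` above `q`), the local invariant of `m_* (loc_q [z])` is
`m(δ_{g₀Γ}) · χ(g₀)⁻¹` times the layer invariant at the embedding `ι_q ∘ g₀` of any class `[c]`
realising the Shapiro restriction of `z`.  From `loc_orb` (LocAsm.lean), the orbit decomposition
(LOC-D) and the independence of `H88.linvAt` of the embedding inside a place (helper20).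
-/
import Fermat.Agent.S55.H66.LocAsm
import Fermat.Agent.S55.H20.LinvIndep

set_option autoImplicit false
set_option linter.style.haveILetI false

open CategoryTheory

noncomputable section

namespace Fermat.Agent.S55.H66

open Fermat.Agent.S55.H49 Fermat.Agent.S55.H26

local notation "Qb" => AlgebraicClosure ℚ

section Aux

variable (p : ℕ) [Fact p.Prime]

theorem qz_zero : qzOfZMod p 0 = 0 := by
  unfold qzOfZMod
  rw [ZMod.val_zero, Nat.cast_zero, zero_div]
  rfl

theorem qz_add (a b : ZMod p) : qzOfZMod p (a + b) = qzOfZMod p a + qzOfZMod p b := by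
  have : NeZero p := ⟨(Fact.out : p.Prime).ne_zero⟩
  have hp : (p : ℚ) ≠ 0 := by exact_mod_cast (Fact.out : p.Prime).ne_zero
  obtain ⟨k, hk⟩ : ∃ k : ℕ, (a + b).val + p * k = a.val + b.val :=
    ⟨(a.val + b.val) / p, by rw [ZMod.val_add]; exact Nat.mod_add_div _ _⟩
  have h2 : (((a + b).val : ℚ)) + p * (k : ℚ) = a.val + b.val := by exact_mod_cast hk
  unfold qzOfZMod
  rw [← AddCircle.coe_add, ← sub_eq_zero, ← AddCircle.coe_sub, AddCircle.coe_eq_zero_iff]
  refine ⟨-(k : ℤ), ?_⟩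
  rw [zsmul_eq_mul, mul_one]
  push_cast
  field_simp
  linear_combination -h2

theorem qz_nsmul (n : ℕ) (b : ZMod p) : qzOfZMod p (n • b) = n • qzOfZMod p b := by
  induction n with
  | zero => rw [zero_smul, zero_smul, qz_zero]
  | succ n ih => rw [succ_nsmul, succ_nsmul, qz_add, ih]

theorem qz_mul (a b : ZMod p) : qzOfZMod p (a * b) = a.val • qzOfZMod p b := by
  have : NeZero p := ⟨(Fact.out : p.Prime).ne_zero⟩
  rw [← qz_nsmul, nsmul_eq_mul, ZMod.natCast_zmod_val]

variable (L : IntermediateField ℚ Qb) (K : IntermediateField L Qb)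

theorem coe_gRes [Normal L K] (σ : L.fixingSubgroup) (x : K) :
    ((gRes L K σ x : K) : Qb) = (σ : GQ) (x : Qb) :=
  AlgEquiv.restrictNormal_commutes (IntermediateField.fixingSubgroupEquiv L σ) K x

end Aux

section Orbit

variable {p : ℕ} [Fact p.Prime] {q : ℕ} [Fact q.Prime] {S : Finset Nat.Primes}

/-- The cyclotomic character is trivial on the automorphisms fixing a primitive `p`-th root of
unity. -/
theorem cycloChar_eq_one_of_apply_eq {z : Qb} (hz : IsPrimitiveRoot z p) (σ : GQ)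
    (h : σ z = z) : ExtCitation.cycloChar p σ = 1 := by
  have : NeZero p := ⟨(Fact.out : p.Prime).ne_zero⟩
  have h2 := gq_apply_eq_pow p σ hz.pow_eq_one
  rw [h] at h2
  have h3 : z ^ ((ExtCitation.cycloChar p σ : (ZMod p)ˣ) : ZMod p).val = z ^ 1 := by
    rw [pow_one]; exact h2.symm
  have h4 := hz.pow_inj (ZMod.val_lt _) (Fact.out : p.Prime).one_lt h3
  apply Units.ext
  rw [← ZMod.natCast_zmod_val ((ExtCitation.cycloChar p σ : (ZMod p)ˣ) : ZMod p), h4,
    Nat.cast_one, Units.val_one]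

/-- `χ_q` is trivial on `Gal(Ω/baseAt g)` when `ζ ∈ L`. -/
theorem chiLoc_eq_one_of_mem (L : IntermediateField ℚ Qb) (K : IntermediateField L Qb)
    {ζ : Qb} (hζ : IsPrimitiveRoot ζ p) (hζL : ζ ∈ L) (g : GQ) (s : GalQ q)
    (hs : s ∈ (baseAt L K q g).fixingSubgroup) : chiLoc p q s = 1 := by
  have h1 : localGaloisToGlobal q s (g ζ) = g ζ := by
    apply (padicEmbedding q).toRingHom.injective
    show padicEmbedding q (localGaloisToGlobal q s (g ζ)) = padicEmbedding q (g ζ)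
    rw [padicEmbedding_localGaloisToGlobal]
    have hmem : padicEmbedding q (g ζ) ∈ baseAt L K q g :=
      IntermediateField.subset_adjoin _ _ ⟨⟨ζ, hζL⟩, rfl⟩
    exact (IntermediateField.mem_fixingSubgroup_iff _ _).1 hs _ hmem
  have hgζ : IsPrimitiveRoot (g ζ) p := hζ.map_of_injective g.injective
  exact cycloChar_eq_one_of_apply_eq hgζ _ h1

set_option maxHeartbeats 1600000 in
/-- **LOC-2, module form for one orbit.**  Let `m : Res_q 𝔽_p[G ⧸ Γ] ⟶ 𝔽_p(χ)` be supported on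
the `G_q`-orbit of `g₀Γ`.  Then `inv_q (m_* loc_q [z])` is `m(δ_{g₀Γ}) χ(g₀)⁻¹` times the layer
invariant of `[c]` at the embedding `ι_q ∘ g₀`. -/
theorem loc_orbit (hA : LocRealiseStatement p q) (hB : ConjShapiroStatement p q S)
    (hC : CohRealiseStatement p q) (hCMP : LocalInvCompStatement p q)
    (hD : OrbitDecompStatement p q S)
    (L : IntermediateField ℚ Qb) [FiniteDimensional ℚ L] (K : IntermediateField L Qb)
    [FiniteDimensional L K] [IsGalois L K]
    (ζ : Kˣ) (hζ : IsPrimitiveRoot ((ζ : K) : Qb) p) (hζL : ((ζ : K) : Qb) ∈ L)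
    (inv : Hlc (Dloc q) (mu (chiLoc p q)) 2 →ₗ[ZMod p] ZMod p)
    (hinv : IsLocalInv p q (padicEmbedding q ((ζ : K) : Qb)) inv)
    (z : cyc (lcComplex (globalDatum S) (permRep (ZMod p) L.fixingSubgroup)) 2)
    (c : groupCohomology.cocycles₂ (Rep.ofAlgebraAutOnUnits L K))
    (hc : GRealises p L K ζ (shapiroRes (globalDatum S) L.fixingSubgroup z) c)
    (m : Rep.res (localGaloisToGlobal q) (permRep (ZMod p) L.fixingSubgroup) ⟶ mu (chiLoc p q))
    (g₀ : GQ)
    (hm : ∀ x : GQ, (∀ h : GalQ q, (x : GQ ⧸ L.fixingSubgroup) ≠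
        ((localGaloisToGlobal q h * g₀ : GQ) : GQ ⧸ L.fixingSubgroup)) →
      m.hom (MonoidAlgebra.single ((x : GQ) : GQ ⧸ L.fixingSubgroup) 1) = 0) :
    qzOfZMod p (inv (hlcMap (Dloc q) m 2 ((cls _ 2).hom
        (cycMap (lcRes (locHom S (localGaloisToGlobal q))
          (permRep (ZMod p) L.fixingSubgroup)) 2 z)))) =
      ((m.hom (MonoidAlgebra.single ((g₀ : GQ) : GQ ⧸ L.fixingSubgroup) 1) : ZMod p) *
        (((ExtCitation.cycloChar p g₀)⁻¹ : (ZMod p)ˣ) : ZMod p)).val •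
        H88.linvAt q L (embAt L K q g₀) (groupCohomology.H2π _ c) := by
  classical
  haveI : NumberField L := ⟨⟩
  have hχ : ∀ g : GQ, ∀ s ∈ (baseAt L K q g).fixingSubgroup, chiLoc p q s = 1 :=
    fun g s hs => chiLoc_eq_one_of_mem L K hζ hζL g s hs
  obtain ⟨R, zg, hcov, hinj, hzg, hsum⟩ := hD L K hχ z m
  obtain ⟨g, hgR, h, hg₀⟩ := hcov g₀
  -- the other representatives do not contribute
  have hzero : ∀ g' ∈ R, g' ≠ g →
      m.hom (MonoidAlgebra.single ((g' : GQ) : GQ ⧸ L.fixingSubgroup) 1) = 0 := by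
    intro g' hg'R hne
    apply hm
    intro h' heq
    apply hne
    refine (hinj g hgR g' hg'R ⟨h' * h, ?_⟩).symm
    rw [heq, map_mul, mul_assoc]
    show (localGaloisToGlobal q h') • ((g₀ : GQ) : GQ ⧸ L.fixingSubgroup) =
      (localGaloisToGlobal q h') •
        (((localGaloisToGlobal q h * g : GQ)) : GQ ⧸ L.fixingSubgroup)
    rw [hg₀]
  have hsum' : hlcMap (Dloc q) m 2 ((cls _ 2).hom
        (cycMap (lcRes (locHom S (localGaloisToGlobal q))
          (permRep (ZMod p) L.fixingSubgroup)) 2 z)) =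
      (m.hom (MonoidAlgebra.single ((g : GQ) : GQ ⧸ L.fixingSubgroup) 1) : ZMod p) •
        hlcMap (Dloc q) (augChar (chiLoc p q) (baseAt L K q g).fixingSubgroup (hχ g)) 2
          ((cls _ 2).hom (zg g)) := by
    rw [hsum]
    exact Finset.sum_eq_single_of_mem g hgR
      (fun g' hg' hne => by rw [hzero g' hg' hne, zero_smul])
  have e2 := (congrArg inv hsum').trans (inv.map_smul _ _)
  rw [e2, smul_eq_mul]
  have horb := loc_orb hA hB hC hCMP L K ζ hζ hζL inv hinv z c hc g (hχ g) (zg g) (hzg g)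
  -- `g₀ = r(h) g γ` with `γ ∈ Γ`
  have hγ : (localGaloisToGlobal q h * g)⁻¹ * g₀ ∈ L.fixingSubgroup :=
    QuotientGroup.eq.1 hg₀.symm
  obtain ⟨γ, hγdef⟩ : ∃ γ : L.fixingSubgroup, (γ : GQ) = (localGaloisToGlobal q h * g)⁻¹ * g₀ :=
    ⟨⟨_, hγ⟩, rfl⟩
  have hg₀eq : g₀ = localGaloisToGlobal q h * g * (γ : GQ) := by
    rw [hγdef]; group
  -- the invariants at `g₀` and `g` agree
  have hlinv : H88.linvAt q L (embAt L K q g₀) = H88.linvAt q L (embAt L K q g) := by
    refine H20.linvAt_eq_of_conj (q := q) (k := L) (τ' := embAt L K q g)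
      (τ'' := embAt L K q g₀) (g := h) (s := gRes L K γ⁻¹) ?_
    intro x
    show padicEmbedding q (g₀ ((gRes L K γ⁻¹ x : K) : Qb)) = h (padicEmbedding q (g (x : Qb)))
    rw [coe_gRes, ← padicEmbedding_localGaloisToGlobal, hg₀eq]
    show padicEmbedding q (localGaloisToGlobal q h (g ((γ : GQ) (((γ⁻¹ : L.fixingSubgroup) : GQ)
      (x : Qb))))) = _
    have e : (γ : GQ) (((γ⁻¹ : L.fixingSubgroup) : GQ) (x : Qb)) = (x : Qb) := by
      show ((γ : GQ) * ((γ⁻¹ : L.fixingSubgroup) : GQ)) (x : Qb) = (x : Qb)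
      rw [← Subgroup.coe_mul, mul_inv_cancel]
      rfl
    rw [e]
  -- the scalars at `g₀` and `g` agree
  have hχγ : ExtCitation.cycloChar p (γ : GQ) = 1 :=
    cycloChar_eq_one_of_apply_eq hζ _
      ((IntermediateField.mem_fixingSubgroup_iff _ _).1 γ.2 _ hζL)
  have hχg₀ : ExtCitation.cycloChar p g₀ = chiLoc p q h * ExtCitation.cycloChar p g := by
    rw [hg₀eq, map_mul, map_mul, hχγ, mul_one]
    rfl
  have hmg₀ : (m.hom (MonoidAlgebra.single ((g₀ : GQ) : GQ ⧸ L.fixingSubgroup) 1) : ZMod p) =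
      ((chiLoc p q h : (ZMod p)ˣ) : ZMod p) *
        m.hom (MonoidAlgebra.single ((g : GQ) : GQ ⧸ L.fixingSubgroup) 1) := by
    rw [hg₀]
    have e1 : (MonoidAlgebra.single (((localGaloisToGlobal q h * g : GQ)) :
        GQ ⧸ L.fixingSubgroup) (1 : ZMod p) : permRep (ZMod p) L.fixingSubgroup) =
        (Rep.res (localGaloisToGlobal q) (permRep (ZMod p) L.fixingSubgroup)).ρ h
          (MonoidAlgebra.single ((g : GQ) : GQ ⧸ L.fixingSubgroup) 1) := by
      show _ = (permRep (ZMod p) L.fixingSubgroup).ρ (localGaloisToGlobal q h)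
        (MonoidAlgebra.single ((g : GQ) : GQ ⧸ L.fixingSubgroup) 1)
      exact (Representation.ofMulAction_single (localGaloisToGlobal q h)
        ((g : GQ) : GQ ⧸ L.fixingSubgroup) (1 : ZMod p)).symm
    rw [e1, Rep.hom_comm_apply, mu_ρ_apply]
  have hscal : (m.hom (MonoidAlgebra.single ((g₀ : GQ) : GQ ⧸ L.fixingSubgroup) 1) : ZMod p) *
        (((ExtCitation.cycloChar p g₀)⁻¹ : (ZMod p)ˣ) : ZMod p) =
      (m.hom (MonoidAlgebra.single ((g : GQ) : GQ ⧸ L.fixingSubgroup) 1) : ZMod p) *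
        (((ExtCitation.cycloChar p g)⁻¹ : (ZMod p)ˣ) : ZMod p) := by
    rw [hmg₀, hχg₀, mul_inv, Units.val_mul]
    have e3 : ((chiLoc p q h : (ZMod p)ˣ) : ZMod p) * (((chiLoc p q h)⁻¹ : (ZMod p)ˣ) : ZMod p)
        = 1 := by rw [← Units.val_mul, mul_inv_cancel, Units.val_one]
    linear_combination (m.hom (MonoidAlgebra.single ((g : GQ) : GQ ⧸ L.fixingSubgroup) 1) :
      ZMod p) * (((ExtCitation.cycloChar p g)⁻¹ : (ZMod p)ˣ) : ZMod p) * e3
  rw [hlinv, hscal, horb, ← qz_mul]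
  congr 1
  have e4 : (((ExtCitation.cycloChar p g)⁻¹ : (ZMod p)ˣ) : ZMod p) *
      ((ExtCitation.cycloChar p g : (ZMod p)ˣ) : ZMod p) = 1 := by
    rw [← Units.val_mul, inv_mul_cancel, Units.val_one]
  linear_combination (-(m.hom (MonoidAlgebra.single ((g : GQ) : GQ ⧸ L.fixingSubgroup) 1) :
    ZMod p) * inv (hlcMap (Dloc q) (augChar (chiLoc p q) (baseAt L K q g).fixingSubgroup (hχ g)) 2
          ((cls _ 2).hom (zg g)))) * e4

end Orbit

end Fermat.Agent.S55.H66
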