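/-
Program C (S55), sub-package LOC of C9b (designer helper66): (LOC-2), UNCONDITIONAL.

All leaves of `LocSpec.lean` are theorems on main — (LOC-A) `H74.locRealiseStatement`,
(LOC-B) `H98.conjShapiro`, (LOC-C) `H71.cohRealise`, (LOC-D) `H96.orbitDecompStatement` — and so
is helper26's (CMP) `H26.localInvComp_holds`.  Hence the two assemblies `loc_orb` (LocAsm.lean)
and `loc_orbit` (LocOrbit.lean) hold without hypotheses on the leaves:

* `loc_orb_holds`: the layer invariant at `ι_q ∘ g` of a class realising the Shapiro restriction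
  of `z` is `χ(g) · inv_q (aug_χ (zg))`;
* `loc_orbit_holds`: for `m : Res_q 𝔽_p[Gal(ℚ̄/ℚ) ⧸ Γ] ⟶ 𝔽_p(χ)` supported on the `G_q`-orbit of
  `g₀Γ`: `inv_q (m_* loc_q [z]) = m(δ_{g₀Γ}) χ(g₀)⁻¹ · linv_{ι_q ∘ g₀} [c]`.
-/
import Fermat.Agent.S55.H66.LocOrbit
import Fermat.Agent.S55.H74.LocRealise
import Fermat.Agent.S55.H98.ConjShapiro
import Fermat.Agent.S55.H71.CohRealise
import Fermat.Agent.S55.H96.OrbitDecomp
import Fermat.Agent.S55.H26.LocalMain

set_option autoImplicit false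

open CategoryTheory

noncomputable section

namespace Fermat.Agent.S55.H66

open Fermat.Agent.S55.H49 Fermat.Agent.S55.H26

local notation "Qb" => AlgebraicClosure ℚ

variable (p : ℕ) [Fact p.Prime] (q : ℕ) [Fact q.Prime] (S : Finset Nat.Primes)

/-- **LOC-2 at `ι_q ∘ g`**, unconditional. -/
theorem loc_orb_holds
    (L : IntermediateField ℚ Qb) [FiniteDimensional ℚ L] (K : IntermediateField L Qb)
    [FiniteDimensional L K] [IsGalois L K]
    (ζ : Kˣ) (hζ : IsPrimitiveRoot ((ζ : K) : Qb) p) (hζL : ((ζ : K) : Qb) ∈ L)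
    (inv : Hlc (Dloc q) (mu (chiLoc p q)) 2 →ₗ[ZMod p] ZMod p)
    (hinv : IsLocalInv p q (padicEmbedding q ((ζ : K) : Qb)) inv)
    (z : cyc (lcComplex (globalDatum S) (permRep (ZMod p) L.fixingSubgroup)) 2)
    (c : groupCohomology.cocycles₂ (Rep.ofAlgebraAutOnUnits L K))
    (hc : GRealises p L K ζ (shapiroRes (globalDatum S) L.fixingSubgroup z) c) (g : GQ)
    (hχ : ∀ s ∈ (baseAt L K q g).fixingSubgroup, chiLoc p q s = 1)
    (zg : cyc (lcComplex (Dloc q) (permRep (ZMod p) (baseAt L K q g).fixingSubgroup)) 2)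
    (hzg : ∀ h₁ h₂ : (baseAt L K q g).fixingSubgroup,
      shapiroRes (Dloc q) (baseAt L K q g).fixingSubgroup zg (h₁, h₂) =
        locCoeff p L K q S g z (h₁, h₂)) :
    H88.linvAt q L (embAt L K q g) (groupCohomology.H2π _ c) =
      qzOfZMod p (((ExtCitation.cycloChar p g : (ZMod p)ˣ) : ZMod p) *
        inv (hlcMap (Dloc q) (augChar (chiLoc p q) (baseAt L K q g).fixingSubgroup hχ) 2
          ((cls _ 2).hom zg))) :=
  loc_orb (H74.locRealiseStatement p q) (H98.conjShapiro p q S) (H71.cohRealise p q)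
    (H26.localInvComp_holds p q) L K ζ hζ hζL inv hinv z c hc g hχ zg hzg

/-- **LOC-2, module form for one orbit**, unconditional. -/
theorem loc_orbit_holds
    (L : IntermediateField ℚ Qb) [FiniteDimensional ℚ L] (K : IntermediateField L Qb)
    [FiniteDimensional L K] [IsGalois L K]
    (ζ : Kˣ) (hζ : IsPrimitiveRoot ((ζ : K) : Qb) p) (hζL : ((ζ : K) : Qb) ∈ L)
    (inv : Hlc (Dloc q) (mu (chiLoc p q)) 2 →ₗ[ZMod p] ZMod p)
    (hinv : IsLocalInv p q (padicEmbedding q ((ζ : K) : Qb)) inv)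
    (z : cyc (lcComplex (globalDatum S) (permRep (ZMod p) L.fixingSubgroup)) 2)
    (c : groupCohomology.cocycles₂ (Rep.ofAlgebraAutOnUnits L K))
    (hc : GRealises p L K ζ (shapiroRes (globalDatum S) L.fixingSubgroup z) c)
    (m : Rep.res (localGaloisToGlobal q) (permRep (ZMod p) L.fixingSubgroup) ⟶ mu (chiLoc p q))
    (g₀ : GQ)
    (hm : ∀ x : GQ, (∀ h : GalQ q, (x : GQ ⧸ L.fixingSubgroup) ≠
        ((localGaloisToGlobal q h * g₀ : GQ) : GQ ⧸ L.fixingSubgroup)) →
      m.hom (MonoidAlgebra.single ((x : GQ) : GQ ⧸ L.fixingSubgroup) 1) = 0) :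
    qzOfZMod p (inv (hlcMap (Dloc q) m 2 ((cls _ 2).hom
        (cycMap (lcRes (locHom S (localGaloisToGlobal q))
          (permRep (ZMod p) L.fixingSubgroup)) 2 z)))) =
      ((m.hom (MonoidAlgebra.single ((g₀ : GQ) : GQ ⧸ L.fixingSubgroup) 1) : ZMod p) *
        (((ExtCitation.cycloChar p g₀)⁻¹ : (ZMod p)ˣ) : ZMod p)).val •
        H88.linvAt q L (embAt L K q g₀) (groupCohomology.H2π _ c) :=
  loc_orbit (H74.locRealiseStatement p q) (H98.conjShapiro p q S) (H71.cohRealise p q)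
    (H26.localInvComp_holds p q) (H96.orbitDecompStatement p q S) L K ζ hζ hζL inv hinv z c hc m
    g₀ hm

end Fermat.Agent.S55.H66
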