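/-
Program C (S55), package C9b, leaf (C) FieldFormBridge: the LOC input of helper54's bridge.

`locOrbitStatement : H54.LocOrbitStatement p q S` — helper54's consumer shape of (LOC-2)
(single-orbit module form with `m (δ_{g₀Γ}) = χ (g₀)`), from `loc_orbit_holds` (LocFinal.lean):
the scalar `m (δ_{g₀Γ}) · χ (g₀)⁻¹` is `1`.
-/
import Fermat.Agent.S55.H66.LocFinal
import Fermat.Agent.S55.H54.BridgeSpec

set_option autoImplicit false

open CategoryTheory

noncomputable section

namespace Fermat.Agent.S55.H66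

open Fermat.Agent.S55.H49 Fermat.Agent.S55.H26

/-- **(LOC) for the bridge (C)**: helper54's `LocOrbitStatement`, unconditional. -/
theorem locOrbitStatement (p : ℕ) [Fact p.Prime] (q : ℕ) [Fact q.Prime]
    (S : Finset Nat.Primes) : H54.LocOrbitStatement p q S := by
  intro L _ K _ _ ζ hζ hζL inv₀ hinv z c hc g₀ m hm0 hm
  haveI : Fact (1 < p) := ⟨(Fact.out : p.Prime).one_lt⟩
  have h := loc_orbit_holds p q S L K ζ hζ hζL inv₀ hinv z c hc m g₀ hm
  rw [h, hm0, ← Units.val_mul, mul_inv_cancel, Units.val_one, ZMod.val_one, one_smul]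

end Fermat.Agent.S55.H66
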